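import Fermat.Prelude.Def_GaloisRep_Residual
import Mathlib.Algebra.MonoidAlgebra.Basic
import Mathlib.LinearAlgebra.Matrix.ToLin
import Mathlib.LinearAlgebra.Eigenspace.Triangularizable
import Mathlib.RingTheory.TensorProduct.Free
import Mathlib.FieldTheory.IsAlgClosed.AlgebraicClosure
import Mathlib.LinearAlgebra.Dual.Lemmas

/-!
# Burnside's theorem in dimension two

An absolutely irreducible two-dimensional representation spans the whole matrix algebra.
-/

set_option autoImplicit false

open scoped TensorProduct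

namespace Fermat.Agent.DefRing

/-- A nonzero singular `2 × 2` matrix over a field has rank one, written out. -/
theorem exists_vecMulVec_of_det_eq_zero {K : Type*} [Field K] (N : Matrix (Fin 2) (Fin 2) K)
    (hN : N ≠ 0) (hdet : N.det = 0) :
    ∃ p q : Fin 2 → K, p ≠ 0 ∧ q ≠ 0 ∧ N = Matrix.vecMulVec p q := by
  obtain ⟨i₀, j₀, h⟩ : ∃ i j, N i j ≠ 0 := by
    by_contra! h
    exact hN (Matrix.ext h)
  rw [Matrix.det_fin_two] at hdet
  refine ⟨fun i => N i j₀, fun j => N i₀ j / N i₀ j₀, ?_, ?_, ?_⟩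
  · exact fun h' => h (congrFun h' i₀)
  · intro h'
    exact one_ne_zero (α := K) (by simpa [h] using congrFun h' j₀)
  · have key : ∀ i j i' j' : Fin 2, N i j * N i' j' = N i j' * N i' j := by
      intro i j i' j'
      fin_cases i <;> fin_cases j <;> fin_cases i' <;> fin_cases j' <;>
        simp <;>
        first
          | ring1
          | linear_combination hdet
          | linear_combination (-1 : K) * hdet
    ext i j
    rw [Matrix.vecMulVec_apply, mul_div_assoc', eq_div_iff h, key]

/-- Burnside's theorem for two-dimensional representations over an algebraically closed field. -/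
theorem lift_range_eq_top_of_irreducible {K : Type*} [Field K] [IsAlgClosed K] {G : Type*}
    [Monoid G] (R : G →* Matrix (Fin 2) (Fin 2) K)
    (hirr : ∀ W : Submodule K (Fin 2 → K),
      (∀ σ, ∀ x ∈ W, Matrix.mulVec (R σ) x ∈ W) → W = ⊥ ∨ W = ⊤) :
    (MonoidAlgebra.lift K (Matrix (Fin 2) (Fin 2) K) G R).range = ⊤ := by
  set S := (MonoidAlgebra.lift K (Matrix (Fin 2) (Fin 2) K) G R).range with hS
  have hRS : ∀ σ, R σ ∈ S := fun σ =>
    ⟨MonoidAlgebra.of K G σ, MonoidAlgebra.lift_of R σ⟩
  -- some element is not scalar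
  obtain ⟨σ₀, hσ₀⟩ : ∃ σ, ∀ c : K, R σ ≠ Matrix.scalar (Fin 2) c := by
    by_contra! hsc
    have h := hirr (Submodule.span K {(Pi.single 0 1 : Fin 2 → K)}) (fun σ x hx => by
      obtain ⟨c, hc⟩ := hsc σ
      rw [hc, Matrix.scalar_apply, ← Matrix.smul_one_eq_diagonal, Matrix.smul_mulVec,
        Matrix.one_mulVec]
      exact Submodule.smul_mem _ _ hx)
    rcases h with h | h
    · rw [Submodule.span_singleton_eq_bot] at h
      simpa using congrFun h 0
    · obtain ⟨c, hc⟩ := Submodule.mem_span_singleton.mp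
        (h ▸ (Submodule.mem_top : (Pi.single 1 1 : Fin 2 → K) ∈ ⊤))
      simpa using congrFun hc 1
  -- a rank one element of `S`
  obtain ⟨c, hc⟩ := Module.End.exists_eigenvalue (Matrix.toLin' (R σ₀))
  obtain ⟨v, hv⟩ := hc.exists_hasEigenvector
  have hNv : (R σ₀ - Matrix.scalar (Fin 2) c).mulVec v = 0 := by
    rw [Matrix.sub_mulVec, Matrix.scalar_apply, ← Matrix.smul_one_eq_diagonal,
      Matrix.smul_mulVec, Matrix.one_mulVec, sub_eq_zero]
    simpa using hv.apply_eq_smul
  have hNS : R σ₀ - Matrix.scalar (Fin 2) c ∈ S := by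
    refine S.sub_mem (hRS σ₀) ?_
    exact S.algebraMap_mem c
  obtain ⟨p, q, hp, hq, hpq⟩ := exists_vecMulVec_of_det_eq_zero _
    (sub_ne_zero.mpr (hσ₀ c)) (Matrix.exists_mulVec_eq_zero_iff.mp ⟨v, hv.2, hNv⟩)
  rw [hpq] at hNS
  -- the orbit of `p`
  let P : Submodule K (Fin 2 → K) :=
    { carrier := {x | ∃ M ∈ S, M.mulVec p = x}
      zero_mem' := ⟨0, S.zero_mem, Matrix.zero_mulVec p⟩
      add_mem' := by
        rintro _ _ ⟨M, hM, rfl⟩ ⟨M', hM', rfl⟩
        exact ⟨M + M', S.add_mem hM hM', Matrix.add_mulVec M M' p⟩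
      smul_mem' := by
        rintro a _ ⟨M, hM, rfl⟩
        exact ⟨a • M, S.smul_mem hM a, Matrix.smul_mulVec a M p⟩ }
  have hP : P = ⊤ := by
    rcases hirr P (fun σ x hx => by
      obtain ⟨M, hM, rfl⟩ := hx
      exact ⟨R σ * M, S.mul_mem (hRS σ) hM, (Matrix.mulVec_mulVec p (R σ) M).symm⟩) with h | h
    · exact absurd ((Submodule.eq_bot_iff P).mp h p ⟨1, S.one_mem, Matrix.one_mulVec p⟩) hp
    · exact h
  -- the co-orbit of `q`
  let Q : Submodule K (Fin 2 → K) :=
    { carrier := {y | ∃ M ∈ S, Matrix.vecMul q M = y}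
      zero_mem' := ⟨0, S.zero_mem, Matrix.vecMul_zero q⟩
      add_mem' := by
        rintro _ _ ⟨M, hM, rfl⟩ ⟨M', hM', rfl⟩
        exact ⟨M + M', S.add_mem hM hM', Matrix.vecMul_add M M' q⟩
      smul_mem' := by
        rintro a _ ⟨M, hM, rfl⟩
        exact ⟨a • M, S.smul_mem hM a, Matrix.vecMul_smul q a M⟩ }
  let Z : Submodule K (Fin 2 → K) :=
    { carrier := {x | ∀ M ∈ S, dotProduct q (Matrix.mulVec M x) = 0}
      zero_mem' := fun M _ => by simp
      add_mem' := fun hx hy M hM => by
        rw [Matrix.mulVec_add, dotProduct_add, hx M hM, hy M hM, add_zero]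
      smul_mem' := fun a x hx M hM => by
        rw [Matrix.mulVec_smul, dotProduct_smul, hx M hM, smul_zero] }
  have hZ : Z = ⊥ := by
    rcases hirr Z (fun σ x hx M hM => by
      rw [Matrix.mulVec_mulVec]
      exact hx _ (S.mul_mem hM (hRS σ))) with h | h
    · exact h
    · exfalso
      apply hq
      funext i
      have := (h ▸ Submodule.mem_top : (Pi.single i 1 : Fin 2 → K) ∈ Z) 1 S.one_mem
      rw [Matrix.one_mulVec, dotProduct_single, mul_one] at this
      simpa using this
  have hQ : Q = ⊤ := by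
    by_contra hne
    obtain ⟨f, hf, hfQ⟩ := Submodule.exists_le_ker_of_lt_top Q (lt_top_iff_ne_top.mpr hne)
    apply hf
    have hf' : ∀ y : Fin 2 → K, f y = dotProduct y (fun i => f (Pi.single i 1)) := by
      intro y
      conv_lhs => rw [pi_eq_sum_univ' y]
      simp [dotProduct]
    have hx : (fun i => f (Pi.single i 1)) ∈ Z := fun M hM => by
      rw [Matrix.dotProduct_mulVec, ← hf']
      exact hfQ ⟨M, hM, rfl⟩
    rw [hZ, Submodule.mem_bot] at hx
    ext i
    simpa using congrFun hx i
  refine Algebra.eq_top_iff.mpr fun M => ?_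
  rw [Matrix.matrix_eq_sum_single M]
  refine S.toSubmodule.sum_mem fun i _ => S.toSubmodule.sum_mem fun j _ => ?_
  obtain ⟨A, hA, hA'⟩ := (hP ▸ Submodule.mem_top : (Pi.single i (M i j) : Fin 2 → K) ∈ P)
  obtain ⟨B, hB, hB'⟩ := (hQ ▸ Submodule.mem_top : (Pi.single j 1 : Fin 2 → K) ∈ Q)
  have : Matrix.single i j (M i j) = A * Matrix.vecMulVec p q * B := by
    rw [Matrix.mul_vecMulVec, Matrix.vecMulVec_mul, hA', hB']
    ext a c
    fin_cases a <;> fin_cases c <;> fin_cases i <;> fin_cases j <;>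
      simp [Matrix.vecMulVec_apply]
  rw [this]
  exact S.mul_mem (S.mul_mem hA hNS) hB

/-- Over any field, absolute irreducibility gives a spanning image. -/
theorem span_range_eq_top_of_isAbsolutelyIrreducible {k : Type} [Field k]
    (ρ : ResidualGaloisRep k) (h : ρ.IsAbsolutelyIrreducible)
    (b : Module.Basis (Fin 2) k ρ.V) :
    Submodule.span k (Set.range fun σ => LinearMap.toMatrix b b (ρ.ρ σ)) = ⊤ := by
  let K := AlgebraicClosure k
  by_contra hne
  obtain ⟨f, hf, hfle⟩ := Submodule.exists_le_ker_of_lt_top _ (lt_top_iff_ne_top.mpr hne)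
  obtain ⟨R, hR⟩ : ∃ R : (AlgebraicClosure ℚ ≃ₐ[ℚ] AlgebraicClosure ℚ) →*
      Matrix (Fin 2) (Fin 2) K,
      ∀ σ, R σ = (LinearMap.toMatrix b b (ρ.ρ σ)).map (algebraMap k K) :=
    ⟨(algebraMap k K).mapMatrix.toMonoidHom.comp
      ((LinearMap.toMatrixAlgEquiv b).toRingEquiv.toRingHom.toMonoidHom.comp ρ.ρ), fun _ => rfl⟩
  let bK : Module.Basis (Fin 2) K (K ⊗[k] ρ.V) := Algebra.TensorProduct.basis K b
  have hbK : ∀ σ, LinearMap.toMatrix bK bK ((ρ.baseChange K).ρ σ) = R σ := fun σ => by
    rw [hR]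
    exact LinearMap.toMatrix_baseChange K (ρ.ρ σ) b b
  have hirr : ∀ W : Submodule K (Fin 2 → K),
      (∀ σ, ∀ x ∈ W, Matrix.mulVec (R σ) x ∈ W) → W = ⊥ ∨ W = ⊤ := by
    intro W hW
    have hW' := h (W.comap bK.equivFun.toLinearMap) (fun σ x hx => by
      have hx' : (⇑(bK.repr x) : Fin 2 → K) ∈ W := by simpa [Submodule.mem_comap] using hx
      have := hW σ _ hx'
      rw [← hbK σ, LinearMap.toMatrix_mulVec_repr] at this
      simpa [Submodule.mem_comap] using this)
    rcases hW' with hW' | hW'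
    · left
      have := congrArg (Submodule.map bK.equivFun.toLinearMap) hW'
      rwa [Submodule.map_comap_eq_of_surjective bK.equivFun.surjective, Submodule.map_bot] at this
    · right
      have := congrArg (Submodule.map bK.equivFun.toLinearMap) hW'
      rwa [Submodule.map_comap_eq_of_surjective bK.equivFun.surjective, Submodule.map_top,
        LinearEquiv.range] at this
  have htop := lift_range_eq_top_of_irreducible R hirr
  let F : Matrix (Fin 2) (Fin 2) K →ₗ[K] K :=
    { toFun := fun M => ∑ i, ∑ j, algebraMap k K (f (Matrix.single i j 1)) * M i j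
      map_add' := fun M M' => by simp [mul_add, Finset.sum_add_distrib]
      map_smul' := fun a M => by
        simp only [Fin.sum_univ_two, Matrix.smul_apply, smul_eq_mul, RingHom.id_apply]
        ring }
  have hFR : ∀ σ, F (R σ) = 0 := by
    intro σ
    have h0 : f (LinearMap.toMatrix b b (ρ.ρ σ)) = 0 := hfle (Submodule.subset_span ⟨σ, rfl⟩)
    rw [hR]
    generalize LinearMap.toMatrix b b (ρ.ρ σ) = M at h0 ⊢
    rw [Matrix.matrix_eq_sum_single M] at h0
    have hs : ∀ (i j : Fin 2) (a : k),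
        f (Matrix.single i j a) = a * f (Matrix.single i j 1) := fun i j a => by
      conv_lhs => rw [← mul_one a, ← smul_eq_mul, ← Matrix.smul_single, map_smul, smul_eq_mul]
    have h1 := congrArg (algebraMap k K) h0
    simp only [Fin.sum_univ_two, map_add, map_zero, hs _ _ (M _ _), map_mul] at h1
    simp only [F, LinearMap.coe_mk, AddHom.coe_mk, Fin.sum_univ_two, Matrix.map_apply]
    linear_combination h1
  have hF : ∀ M, F M = 0 := by
    intro M
    obtain ⟨x, rfl⟩ := (htop ▸ Algebra.mem_top :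
      M ∈ (MonoidAlgebra.lift K (Matrix (Fin 2) (Fin 2) K) _ R).range)
    induction x using MonoidAlgebra.induction_linear with
    | zero => simp
    | add x y hx hy => simp_all
    | single σ a => simp [hFR σ]
  apply hf
  refine LinearMap.ext fun M => ?_
  rw [Matrix.matrix_eq_sum_single M]
  rw [LinearMap.zero_apply, map_sum]
  simp only [map_sum]
  refine Finset.sum_eq_zero fun i _ => Finset.sum_eq_zero fun j _ => ?_
  rw [← mul_one (M i j), ← smul_eq_mul, ← Matrix.smul_single, map_smul]
  have := hF (Matrix.single i j 1)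
  simp only [F, LinearMap.coe_mk, AddHom.coe_mk, Matrix.single_apply] at this
  fin_cases i <;> fin_cases j <;> simp [Fin.sum_univ_two] at this ⊢ <;> simp [this]

end Fermat.Agent.DefRing
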