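import Fermat.Prelude.Def_GaloisRep_Adic
import Mathlib.LinearAlgebra.Matrix.ToLin
import Mathlib.RingTheory.TensorProduct.Free
import Mathlib.LinearAlgebra.Dimension.Free

/-!
# Galois representations as matrix representations
-/

set_option autoImplicit false

open IsLocalRing
open scoped TensorProduct

namespace Fermat.Agent.DefRing

/-- The absolute Galois group of `ℚ`. -/
abbrev GQ : Type := AlgebraicClosure ℚ ≃ₐ[ℚ] AlgebraicClosure ℚ

/-- Two-dimensional matrix representations. -/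
abbrev MRep (A : Type) [CommRing A] : Type := GQ →* Matrix (Fin 2) (Fin 2) A

variable {A B : Type} [CommRing A] [CommRing B]

/-- Push a matrix representation along a ring map. -/
noncomputable def mapRep (φ : A →+* B) (N : MRep A) : MRep B := φ.mapMatrix.toMonoidHom.comp N

@[simp]
theorem mapRep_apply (φ : A →+* B) (N : MRep A) (σ : GQ) : mapRep φ N σ = (N σ).map φ := rfl

theorem mapRep_mapRep {C : Type} [CommRing C] (ψ : B →+* C) (φ : A →+* B) (N : MRep A) :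
    mapRep ψ (mapRep φ N) = mapRep (ψ.comp φ) N := by
  refine MonoidHom.ext fun σ => ?_
  simp [Matrix.map_map]

@[simp]
theorem mapRep_id (N : MRep A) : mapRep (RingHom.id A) N = N := by
  refine MonoidHom.ext fun σ => ?_
  simp

variable [IsLocalRing A] [IsLocalRing B]

/-- Adic continuity of a matrix representation. -/
def IsCont (N : MRep A) : Prop :=
  ∀ n : ℕ, ∃ L : IntermediateField ℚ (AlgebraicClosure ℚ), FiniteDimensional ℚ L ∧
    ∀ σ : GQ, (∀ x ∈ L, σ x = x) → ∀ i j, (N σ - 1) i j ∈ maximalIdeal A ^ n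

theorem IsCont.map {N : MRep A} (h : IsCont N) (φ : A →+* B) (hφ : IsLocalHom φ) :
    IsCont (mapRep φ N) := by
  intro n
  obtain ⟨L, hL, hσ⟩ := h n
  refine ⟨L, hL, fun σ hfix i j => ?_⟩
  have hle : (maximalIdeal A ^ n).map φ ≤ maximalIdeal B ^ n := by
    rw [Ideal.map_pow]
    exact Ideal.pow_right_mono (Ideal.map_le_iff_le_comap.mpr fun a ha => Ideal.mem_comap.mpr
      ((mem_maximalIdeal _).mpr fun hu => (mem_maximalIdeal a).mp ha (hφ.map_nonunit a hu))) n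
  have := hle (Ideal.mem_map_of_mem φ (hσ σ hfix i j))
  convert this using 1
  by_cases hij : i = j <;> simp [hij, map_sub]

/-- A continuous matrix representation as a `GaloisRepAdic`. -/
noncomputable def toAdic (N : MRep A) (h : IsCont N) : GaloisRepAdic A where
  V := Fin 2 → A
  finrank_eq := by simp
  ρ := (Matrix.toLinAlgEquiv' (R := A) (n := Fin 2)).toRingEquiv.toRingHom.toMonoidHom.comp N
  isAdicContinuous := by
    intro n
    obtain ⟨L, hL, hσ⟩ := h n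
    refine ⟨L, hL, fun σ hfix v => ?_⟩
    show Matrix.mulVec (N σ) v - v ∈ _
    have : Matrix.mulVec (N σ) v - v = Matrix.mulVec (N σ - 1) v := by
      rw [Matrix.sub_mulVec, Matrix.one_mulVec]
    rw [this, pi_eq_sum_univ' (Matrix.mulVec (N σ - 1) v)]
    refine sum_mem fun i _ => Submodule.smul_mem_smul ?_ Submodule.mem_top
    show (∑ j, (N σ - 1) i j * v j) ∈ _
    exact sum_mem fun j _ => Ideal.mul_mem_right _ _ (hσ σ hfix i j)

theorem toAdic_ρ_apply (N : MRep A) (h : IsCont N) (σ : GQ) :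
    (toAdic N h).ρ σ = Matrix.toLin' (N σ) := rfl

/-- A basis of a two-dimensional representation. -/
noncomputable def repBasis (ρ : GaloisRepAdic A) : Module.Basis (Fin 2) A ρ.V :=
  Module.finBasisOfFinrankEq A ρ.V ρ.finrank_eq

/-- The matrices of a representation in a basis. -/
noncomputable def matrixRep (ρ : GaloisRepAdic A) (b : Module.Basis (Fin 2) A ρ.V) : MRep A :=
  (LinearMap.toMatrixAlgEquiv b).toRingEquiv.toRingHom.toMonoidHom.comp ρ.ρ

@[simp]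
theorem matrixRep_apply (ρ : GaloisRepAdic A) (b : Module.Basis (Fin 2) A ρ.V) (σ : GQ) :
    matrixRep ρ b σ = LinearMap.toMatrix b b (ρ.ρ σ) := rfl

theorem isCont_matrixRep (ρ : GaloisRepAdic A) (b : Module.Basis (Fin 2) A ρ.V) :
    IsCont (matrixRep ρ b) := by
  intro n
  obtain ⟨L, hL, hσ⟩ := ρ.isAdicContinuous n
  refine ⟨L, hL, fun σ hfix i j => ?_⟩
  have : (matrixRep ρ b σ - 1) i j = b.coord i (ρ.ρ σ (b j) - b j) := by
    simp [LinearMap.toMatrix_apply, Matrix.one_apply, Finsupp.single_apply, eq_comm]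
  rw [this]
  have h' := Submodule.mem_map_of_mem (f := b.coord i) (hσ σ hfix (b j))
  rw [Submodule.map_smul''] at h'
  simpa using Submodule.smul_mono (le_refl (maximalIdeal A ^ n)) le_top h'

omit [IsLocalRing A] in
/-- Intertwiners in bases. -/
theorem exists_equiv_iff_exists_GL {ι V₁ V₂ : Type*} [AddCommGroup V₁] [Module A V₁]
    [AddCommGroup V₂] [Module A V₂] (b₁ : Module.Basis (Fin 2) A V₁)
    (b₂ : Module.Basis (Fin 2) A V₂) (f₁ : ι → Module.End A V₁) (f₂ : ι → Module.End A V₂) :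
    (∃ e : V₁ ≃ₗ[A] V₂, ∀ σ x, e (f₁ σ x) = f₂ σ (e x)) ↔
      ∃ g : (Matrix (Fin 2) (Fin 2) A)ˣ, ∀ σ, (g : Matrix (Fin 2) (Fin 2) A) *
        LinearMap.toMatrix b₁ b₁ (f₁ σ) = LinearMap.toMatrix b₂ b₂ (f₂ σ) * g := by
  constructor
  · rintro ⟨e, he⟩
    refine ⟨⟨LinearMap.toMatrix b₁ b₂ e.toLinearMap, LinearMap.toMatrix b₂ b₁ e.symm.toLinearMap,
      ?_, ?_⟩, fun σ => ?_⟩
    · rw [← LinearMap.toMatrix_comp b₂ b₁ b₂]
      simp
    · rw [← LinearMap.toMatrix_comp b₁ b₂ b₁]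
      simp
    · show LinearMap.toMatrix b₁ b₂ e.toLinearMap * _ = _ * LinearMap.toMatrix b₁ b₂ e.toLinearMap
      rw [← LinearMap.toMatrix_comp b₁ b₁ b₂, ← LinearMap.toMatrix_comp b₁ b₂ b₂]
      congr 1
      exact LinearMap.ext (he σ)
  · rintro ⟨g, hg⟩
    have hr : (Matrix.toLin b₂ b₁ ↑g⁻¹).comp (Matrix.toLin b₁ b₂ ↑g) = LinearMap.id := by
      rw [← Matrix.toLin_mul b₁ b₂ b₁, Units.inv_mul, Matrix.toLin_one]
    have hl : (Matrix.toLin b₁ b₂ ↑g).comp (Matrix.toLin b₂ b₁ ↑g⁻¹) = LinearMap.id := by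
      rw [← Matrix.toLin_mul b₂ b₁ b₂, Units.mul_inv, Matrix.toLin_one]
    refine ⟨LinearEquiv.ofLinearMap (Matrix.toLin b₁ b₂ ↑g) (Matrix.toLin b₂ b₁ ↑g⁻¹) hl hr,
      fun σ x => ?_⟩
    have := congrArg (Matrix.toLin b₁ b₂) (hg σ)
    rw [Matrix.toLin_mul b₁ b₁ b₂, Matrix.toLin_mul b₁ b₂ b₂, Matrix.toLin_toMatrix,
      Matrix.toLin_toMatrix] at this
    exact LinearMap.congr_fun this x

theorem isEquiv_iff_exists_GL {ρ₁ ρ₂ : GaloisRepAdic A} (b₁ : Module.Basis (Fin 2) A ρ₁.V)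
    (b₂ : Module.Basis (Fin 2) A ρ₂.V) :
    ρ₁.IsEquiv ρ₂ ↔ ∃ g : (Matrix (Fin 2) (Fin 2) A)ˣ, ∀ σ,
      (g : Matrix (Fin 2) (Fin 2) A) * matrixRep ρ₁ b₁ σ = matrixRep ρ₂ b₂ σ * g := by
  simp only [matrixRep_apply]
  rw [← exists_equiv_iff_exists_GL b₁ b₂ ρ₁.ρ ρ₂.ρ]
  exact ⟨fun ⟨e⟩ => ⟨e.toLinearEquiv, e.map_apply⟩, fun ⟨e, he⟩ => ⟨⟨e, he⟩⟩⟩

/-- The standard basis of `toAdic`. -/
noncomputable def toAdicBasis (N : MRep A) (h : IsCont N) :
    Module.Basis (Fin 2) A (toAdic N h).V :=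
  Pi.basisFun A (Fin 2)

@[simp]
theorem matrixRep_toAdic (N : MRep A) (h : IsCont N) :
    matrixRep (toAdic N h) (toAdicBasis N h) = N := by
  refine MonoidHom.ext fun σ => ?_
  exact LinearMap.toMatrix'_toLin' (N σ)

theorem toAdic_isEquiv_toAdic_iff {N N' : MRep A} (h : IsCont N) (h' : IsCont N') :
    (toAdic N h).IsEquiv (toAdic N' h') ↔ ∃ g : (Matrix (Fin 2) (Fin 2) A)ˣ, ∀ σ,
      (g : Matrix (Fin 2) (Fin 2) A) * N σ = N' σ * g := by
  rw [isEquiv_iff_exists_GL (toAdicBasis N h) (toAdicBasis N' h'), matrixRep_toAdic,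
    matrixRep_toAdic]

theorem isEquiv_toAdic_matrixRep (ρ : GaloisRepAdic A) (b : Module.Basis (Fin 2) A ρ.V)
    {N : MRep A} (hN : matrixRep ρ b = N) (h : IsCont N) : ρ.IsEquiv (toAdic N h) := by
  rw [isEquiv_iff_exists_GL b (toAdicBasis N h), matrixRep_toAdic, hN]
  exact ⟨1, fun σ => by simp⟩

theorem isEquiv_trans {ρ₁ ρ₂ ρ₃ : GaloisRepAdic A} (h : ρ₁.IsEquiv ρ₂) (h' : ρ₂.IsEquiv ρ₃) :
    ρ₁.IsEquiv ρ₃ :=
  ⟨h.some.trans h'.some⟩

theorem isEquiv_symm {ρ₁ ρ₂ : GaloisRepAdic A} (h : ρ₁.IsEquiv ρ₂) : ρ₂.IsEquiv ρ₁ :=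
  ⟨h.some.symm⟩

theorem isEquiv_baseChangeAlong {ρ₁ ρ₂ : GaloisRepAdic A} (φ : A →+* B) (hφ : IsLocalHom φ)
    (h : ρ₁.IsEquiv ρ₂) : (ρ₁.baseChangeAlong φ hφ).IsEquiv (ρ₂.baseChangeAlong φ hφ) :=
  ⟨GaloisRepAdic.Equiv.baseChangeAlong φ hφ h.some⟩

theorem baseChangeAlong_toAdic_isEquiv (N : MRep A) (h : IsCont N) (φ : A →+* B)
    (hφ : IsLocalHom φ) :
    ((toAdic N h).baseChangeAlong φ hφ).IsEquiv (toAdic (mapRep φ N) (h.map φ hφ)) := by
  let : Algebra A B := φ.toAlgebra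
  refine isEquiv_toAdic_matrixRep _
    (Algebra.TensorProduct.basis B (toAdicBasis N h)) (MonoidHom.ext fun σ => ?_) _
  refine (LinearMap.toMatrix_baseChange B ((toAdic N h).ρ σ) (toAdicBasis N h)
    (toAdicBasis N h)).trans ?_
  have := congrArg (fun M => M σ) (matrixRep_toAdic N h)
  simp only [matrixRep_apply] at this
  rw [this]
  rfl

theorem baseChangeAlong_isEquiv_of_isEquiv_toAdic {ρ : GaloisRepAdic A} {N : MRep A}
    (h : IsCont N) (hρ : ρ.IsEquiv (toAdic N h)) (φ : A →+* B) (hφ : IsLocalHom φ) :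
    (ρ.baseChangeAlong φ hφ).IsEquiv (toAdic (mapRep φ N) (h.map φ hφ)) :=
  isEquiv_trans (isEquiv_baseChangeAlong φ hφ hρ) (baseChangeAlong_toAdic_isEquiv N h φ hφ)

/-- The residual representation in matrices. -/
theorem residual_isEquiv_baseChangeAlong_iff (ρ : GaloisRepAdic A)
    (b : Module.Basis (Fin 2) A ρ.V) {k : Type} [Field k] (ρ₀ : ResidualGaloisRep k)
    (b₀ : Module.Basis (Fin 2) k ρ₀.V) (ψ : k →+* ResidueField A) :
    ρ.residual.IsEquiv (ρ₀.baseChangeAlong ψ) ↔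
      ∃ g : (Matrix (Fin 2) (Fin 2) (ResidueField A))ˣ, ∀ σ,
        (g : Matrix (Fin 2) (Fin 2) (ResidueField A)) * (matrixRep ρ b σ).map (residue A) =
          (LinearMap.toMatrix b₀ b₀ (ρ₀.ρ σ)).map ψ * g := by
  let : Algebra k (ResidueField A) := ψ.toAlgebra
  let b₁ : Module.Basis (Fin 2) (ResidueField A) ρ.residual.V :=
    Algebra.TensorProduct.basis (ResidueField A) b
  let b₂ : Module.Basis (Fin 2) (ResidueField A) (ρ₀.baseChangeAlong ψ).V :=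
    Algebra.TensorProduct.basis (ResidueField A) b₀
  have h₁ : ∀ σ, LinearMap.toMatrix b₁ b₁ (ρ.residual.ρ σ) =
      (matrixRep ρ b σ).map (residue A) := fun σ =>
    LinearMap.toMatrix_baseChange (ResidueField A) (ρ.ρ σ) b b
  have h₂ : ∀ σ, LinearMap.toMatrix b₂ b₂ ((ρ₀.baseChangeAlong ψ).ρ σ) =
      (LinearMap.toMatrix b₀ b₀ (ρ₀.ρ σ)).map ψ := fun σ =>
    LinearMap.toMatrix_baseChange (ResidueField A) (ρ₀.ρ σ) b₀ b₀
  simp only [← h₁, ← h₂]
  rw [← exists_equiv_iff_exists_GL b₁ b₂ ρ.residual.ρ (ρ₀.baseChangeAlong ψ).ρ]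
  exact ⟨fun ⟨e⟩ => ⟨e.toLinearEquiv, e.map_apply⟩, fun ⟨e, he⟩ => ⟨⟨e, he⟩⟩⟩

end Fermat.Agent.DefRing
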