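import Fermat.Prelude.Def_GaloisRep_DeformationCondition

/-!
# Test algebras: reduction to the residue field, generators, finite constructions
-/

set_option autoImplicit false

open IsLocalRing

namespace Fermat.Agent.DefRing

variable {𝒪 : Type} [CommRing 𝒪] [IsLocalRing 𝒪]

local notation "k" => IsLocalRing.ResidueField 𝒪

variable {A : Type} [CommRing A] [IsLocalRing A] [Algebra 𝒪 A]

/-- The reduction of a local `𝒪`-algebra with the same residue field. -/
noncomputable def toResidue (hloc : IsLocalHom (algebraMap 𝒪 A))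
    (hsurj : Function.Surjective (residue A ∘ algebraMap 𝒪 A)) : A →ₐ[𝒪] k :=
  haveI := hloc
  have hb : Function.Bijective (ResidueField.map (algebraMap 𝒪 A)) :=
    ⟨RingHom.injective _, fun y => by
      obtain ⟨x, rfl⟩ := hsurj y
      exact ⟨residue 𝒪 x, ResidueField.map_residue _ x⟩⟩
  { (RingEquiv.ofBijective _ hb).symm.toRingHom.comp (residue A) with
    commutes' := fun x => by
      show (RingEquiv.ofBijective _ hb).symm (residue A (algebraMap 𝒪 A x)) = algebraMap 𝒪 k x
      rw [RingEquiv.symm_apply_eq]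
      exact (ResidueField.map_residue _ x).symm }

theorem residueField_map_toResidue [IsLocalHom (algebraMap 𝒪 A)]
    (hsurj : Function.Surjective (residue A ∘ algebraMap 𝒪 A)) (a : A) :
    ResidueField.map (algebraMap 𝒪 A) (toResidue ‹_› hsurj a) = residue A a :=
  RingEquiv.apply_symm_apply
    (RingEquiv.ofBijective (ResidueField.map (algebraMap 𝒪 A)) (show Function.Bijective _ from
      ⟨RingHom.injective _, fun y => by
        obtain ⟨x, rfl⟩ := hsurj y
        exact ⟨residue 𝒪 x, ResidueField.map_residue _ x⟩⟩)) (residue A a)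

omit [IsLocalRing 𝒪] in
theorem exists_algebraMap_add_mem (hsurj : Function.Surjective (residue A ∘ algebraMap 𝒪 A))
    (a : A) : ∃ x : 𝒪, a - algebraMap 𝒪 A x ∈ maximalIdeal A := by
  obtain ⟨x, hx⟩ := hsurj (residue A a)
  exact ⟨x, by rw [← residue_eq_zero_iff, map_sub, sub_eq_zero]; exact hx.symm⟩

theorem toResidue_eq_zero_iff (hloc : IsLocalHom (algebraMap 𝒪 A))
    (hsurj : Function.Surjective (residue A ∘ algebraMap 𝒪 A)) {a : A} :
    toResidue hloc hsurj a = 0 ↔ a ∈ maximalIdeal A := by
  have := hloc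
  rw [← residue_eq_zero_iff, ← residueField_map_toResidue hsurj,
    map_eq_zero_iff _ (RingHom.injective _)]

/-- A local algebra map to the residue field is the reduction. -/
theorem algHom_residueField_unique (hloc : IsLocalHom (algebraMap 𝒪 A))
    (hsurj : Function.Surjective (residue A ∘ algebraMap 𝒪 A)) (f : A →ₐ[𝒪] k)
    (hf : ∀ a ∈ maximalIdeal A, f a = 0) : f = toResidue hloc hsurj := by
  ext a
  obtain ⟨x, hx⟩ := exists_algebraMap_add_mem hsurj a
  have h1 := hf _ hx
  have h2 := (toResidue_eq_zero_iff hloc hsurj).mpr hx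
  rw [map_sub, sub_eq_zero, AlgHom.commutes] at h1 h2
  rw [h1, h2]

theorem toResidue_comp {B : Type} [CommRing B] [IsLocalRing B] [Algebra 𝒪 B]
    (hlA : IsLocalHom (algebraMap 𝒪 A))
    (hsA : Function.Surjective (residue A ∘ algebraMap 𝒪 A))
    (hlB : IsLocalHom (algebraMap 𝒪 B))
    (hsB : Function.Surjective (residue B ∘ algebraMap 𝒪 B))
    (f : A →ₐ[𝒪] B) (hf : IsLocalHom (f : A →+* B)) :
    (toResidue hlB hsB).comp f = toResidue hlA hsA := by
  refine algHom_residueField_unique hlA hsA _ fun a ha => ?_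
  rw [AlgHom.comp_apply, toResidue_eq_zero_iff hlB hsB]
  exact fun h => ha (hf.map_nonunit a h)

omit [IsLocalRing 𝒪] in
/-- If a subalgebra gives the residue field and `m ⊆ S + m²` with `m` nilpotent, it is everything. -/
theorem subalgebra_eq_top (hnil : IsNilpotent (maximalIdeal A))
    (hsurj : Function.Surjective (residue A ∘ algebraMap 𝒪 A)) (S : Subalgebra 𝒪 A)
    (h : ∀ a ∈ maximalIdeal A, ∃ s ∈ S, a - s ∈ maximalIdeal A ^ 2) : S = ⊤ := by
  have key : ∀ n, ∀ a ∈ maximalIdeal A ^ n,
      ∃ s ∈ S, s ∈ maximalIdeal A ^ n ∧ a - s ∈ maximalIdeal A ^ (n + 1) := by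
    intro n
    induction n with
    | zero =>
      intro a _
      obtain ⟨x, hx⟩ := exists_algebraMap_add_mem hsurj a
      exact ⟨_, S.algebraMap_mem x, by simp, by simpa using hx⟩
    | succ n ih =>
      intro a ha
      rw [pow_succ] at ha
      refine Submodule.mul_induction_on ha ?_ ?_
      · intro b hb c hc
        obtain ⟨s, hsS, hs, hbs⟩ := ih b hb
        obtain ⟨t, htS, hct⟩ := h c hc
        have ht : t ∈ maximalIdeal A := by
          simpa using sub_mem hc (Ideal.pow_le_self two_ne_zero hct)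
        refine ⟨s * t, S.mul_mem hsS htS, pow_succ (maximalIdeal A) n ▸ Ideal.mul_mem_mul hs ht, ?_⟩
        rw [show b * c - s * t = (b - s) * c + s * (c - t) by ring]
        refine add_mem ?_ ?_
        · rw [pow_succ (maximalIdeal A) (n + 1)]
          exact Ideal.mul_mem_mul hbs hc
        · rw [show n + 1 + 1 = n + 2 from rfl, pow_add]
          exact Ideal.mul_mem_mul hs hct
      · rintro x y ⟨s, hsS, hs, hxs⟩ ⟨t, htS, ht, hyt⟩
        exact ⟨s + t, S.add_mem hsS htS, add_mem hs ht, by
          rw [show x + y - (s + t) = (x - s) + (y - t) by ring]; exact add_mem hxs hyt⟩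
  refine Algebra.eq_top_iff.mpr fun a => ?_
  have : ∀ n, ∃ s ∈ S, a - s ∈ maximalIdeal A ^ n := by
    intro n
    induction n with
    | zero => exact ⟨0, S.zero_mem, by simp⟩
    | succ n ih =>
      obtain ⟨s, hsS, hs⟩ := ih
      obtain ⟨t, htS, -, ht⟩ := key n _ hs
      exact ⟨s + t, S.add_mem hsS htS, by rwa [← sub_sub]⟩
  obtain ⟨N, hN⟩ := hnil
  obtain ⟨s, hsS, hs⟩ := this N
  rw [hN, Ideal.zero_eq_bot, Ideal.mem_bot, sub_eq_zero] at hs
  exact hs ▸ hsS

theorem isNilpotent_maximalIdeal_of_isArtinianRing [IsArtinianRing A] :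
    IsNilpotent (maximalIdeal A) :=
  (isArtinianRing_iff_isNilpotent_maximalIdeal A).mp ‹_›

theorem finite_of_isArtinianTestAlgebra [Finite k]
    (hA : GaloisRep.IsArtinianTestAlgebra 𝒪 A) : Finite A := by
  have := hA.isArtinian
  obtain ⟨N, hN⟩ := isNilpotent_maximalIdeal_of_isArtinianRing (A := A)
  have : Finite (A ⧸ maximalIdeal A) := by
    have := hA.isLocalHom
    refine Finite.of_surjective (fun x : k => ResidueField.map (algebraMap 𝒪 A) x) fun y => ?_
    obtain ⟨x, rfl⟩ := hA.residue_surjective y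
    exact ⟨residue 𝒪 x, ResidueField.map_residue _ x⟩
  have : Finite (A ⧸ maximalIdeal A ^ N) :=
    Ideal.finite_quotient_pow (IsNoetherian.noetherian _) N
  rw [hN] at this
  exact Finite.of_equiv _ (RingEquiv.quotientBot A).toEquiv

/-- An algebra hom out of an Artinian local ring into a local ring is local. -/
theorem isLocalHom_of_isArtinianRing [IsArtinianRing A] {B : Type} [CommRing B] [IsLocalRing B]
    (f : A →+* B) : IsLocalHom f := by
  refine ⟨fun a ha => ?_⟩
  by_contra hna
  obtain ⟨N, hN⟩ := isNilpotent_maximalIdeal_of_isArtinianRing (A := A)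
  have h0 : a ^ N = 0 := by
    have := Ideal.pow_mem_pow ((mem_maximalIdeal a).mpr hna) N
    rwa [hN, Ideal.zero_eq_bot, Ideal.mem_bot] at this
  have := ha.pow N
  rw [← map_pow, h0, map_zero] at this
  exact not_isUnit_zero this

/-- Recognition of test algebras among finite algebras. -/
theorem isUnit_of_toField_ne_zero {C : Type} [CommRing C] [Algebra 𝒪 C] (π : C →ₐ[𝒪] k)
    (hnil : ∀ c, π c = 0 → IsNilpotent c) {c : C} (hc : π c ≠ 0) : IsUnit c := by
  obtain ⟨x, hx⟩ := residue_surjective (π c)
  have hx' : IsUnit x := by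
    by_contra h
    exact hc (hx ▸ (residue_eq_zero_iff x).mpr h)
  have h0 : π (c - algebraMap 𝒪 C x) = 0 := by
    rw [map_sub, AlgHom.commutes, ← hx]; exact sub_self _
  have := (hnil _ h0).isUnit_add_right_of_commute (hx'.map (algebraMap 𝒪 C)) (Commute.all _ _)
  simpa using this

theorem isLocalRing_of_toField {C : Type} [CommRing C] [Algebra 𝒪 C] (π : C →ₐ[𝒪] k)
    (hnil : ∀ c, π c = 0 → IsNilpotent c) : IsLocalRing C := by
  have : Nontrivial C := π.toRingHom.domain_nontrivial
  refine IsLocalRing.of_isUnit_or_isUnit_one_sub_self fun c => ?_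
  by_cases h : π c = 0
  · exact Or.inr (isUnit_of_toField_ne_zero π hnil (by simp [h]))
  · exact Or.inl (isUnit_of_toField_ne_zero π hnil h)

theorem isArtinianTestAlgebra_of_toField {C : Type} [CommRing C] [IsLocalRing C] [Finite C]
    [Algebra 𝒪 C] (π : C →ₐ[𝒪] k) (_hnil : ∀ c, π c = 0 → IsNilpotent c) :
    GaloisRep.IsArtinianTestAlgebra 𝒪 C where
  isArtinian := inferInstance
  isLocalHom := ⟨fun x hx => by
    have := hx.map π
    rw [AlgHom.commutes] at this
    by_contra h
    exact this.ne_zero ((residue_eq_zero_iff x).mpr h)⟩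
  residue_surjective := fun y => by
    obtain ⟨c, rfl⟩ := residue_surjective y
    obtain ⟨x, hx⟩ := residue_surjective (π c)
    refine ⟨x, (Ideal.Quotient.mk_eq_mk_iff_sub_mem _ _).mpr fun hu => ?_⟩
    have := hu.map π
    rw [map_sub, AlgHom.commutes, ← hx] at this
    exact this.ne_zero (sub_self _)

end Fermat.Agent.DefRing
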