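import Fermat.Agent.DefRing.Burnside
import Fermat.Agent.DefRing.MatrixRep
import Fermat.Agent.DefRing.TestAlgebra
import Mathlib.RingTheory.Henselian

/-!
# Normal forms of deformations

Fix `u, w` in the group algebra reducing to `e₁₁` and `e₂₁`. A lift `N` is normal if
`N(u) e₁ ∈ A e₁` and `N(w) e₁ = e₂`. Every deformation has exactly one normal representative.
-/

set_option autoImplicit false

open IsLocalRing Polynomial

namespace Fermat.Agent.DefRing

variable {𝒪 : Type} [CommRing 𝒪] [IsLocalRing 𝒪]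

local notation "k" => IsLocalRing.ResidueField 𝒪

variable {A B : Type} [CommRing A] [Algebra 𝒪 A] [CommRing B] [Algebra 𝒪 B]

/-- Evaluation of the group algebra at a matrix representation. -/
noncomputable def evRep (N : MRep A) : MonoidAlgebra 𝒪 GQ →ₐ[𝒪] Matrix (Fin 2) (Fin 2) A :=
  MonoidAlgebra.lift 𝒪 (Matrix (Fin 2) (Fin 2) A) GQ N

omit [IsLocalRing 𝒪] in
theorem evRep_of (N : MRep A) (σ : GQ) : evRep (𝒪 := 𝒪) N (MonoidAlgebra.of 𝒪 GQ σ) = N σ :=
  MonoidAlgebra.lift_of N σ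

omit [IsLocalRing 𝒪] in
theorem map_evRep (φ : A →ₐ[𝒪] B) (N : MRep A) (x : MonoidAlgebra 𝒪 GQ) :
    (evRep N x).map φ = evRep (mapRep (φ : A →+* B) N) x := by
  induction x using MonoidAlgebra.induction_linear with
  | zero => simp
  | add x y hx hy => simp [Matrix.map_add, hx, hy]
  | single σ a =>
    ext i j
    simp only [evRep, MonoidAlgebra.lift_single, Matrix.map_apply, Matrix.smul_apply, mapRep_apply,
      map_smul]
    rfl

omit [IsLocalRing 𝒪] in
theorem evRep_conj {N N' : MRep A} (g : Matrix (Fin 2) (Fin 2) A)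
    (h : ∀ σ, g * N σ = N' σ * g) (x : MonoidAlgebra 𝒪 GQ) : g * evRep N x = evRep N' x * g := by
  induction x using MonoidAlgebra.induction_linear with
  | zero => simp
  | add x y hx hy => simp [Matrix.mul_add, Matrix.add_mul, hx, hy]
  | single σ a => simp [evRep, h σ]

/-- The auxiliary data defining the normal form. -/
structure NormalData (𝒪 : Type) [CommRing 𝒪] [IsLocalRing 𝒪] where
  /-- residual matrices -/
  rbar : MRep (IsLocalRing.ResidueField 𝒪)
  /-- element reducing to `e₁₁` -/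
  u : MonoidAlgebra 𝒪 GQ
  /-- element reducing to `e₂₁` -/
  w : MonoidAlgebra 𝒪 GQ
  u_spec : evRep rbar u = Matrix.single 0 0 1
  w_spec : evRep rbar w = Matrix.single 1 0 1

omit [IsLocalRing 𝒪] in
theorem evRep_surjective_of_span_eq_top {N : MRep A}
    (hsurj : Function.Surjective (algebraMap 𝒪 A))
    (h : Submodule.span A (Set.range N) = ⊤) : Function.Surjective (evRep (𝒪 := 𝒪) N) := by
  intro M
  have hM : M ∈ Submodule.span A (Set.range N) := h ▸ Submodule.mem_top
  induction hM using Submodule.span_induction with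
  | mem x hx =>
    obtain ⟨σ, rfl⟩ := hx
    exact ⟨_, evRep_of N σ⟩
  | zero => exact ⟨0, map_zero _⟩
  | add x y _ _ hx hy =>
    obtain ⟨a, rfl⟩ := hx
    obtain ⟨b, rfl⟩ := hy
    exact ⟨a + b, map_add _ _ _⟩
  | smul c x _ hx =>
    obtain ⟨a, rfl⟩ := hx
    obtain ⟨o, rfl⟩ := hsurj c
    exact ⟨o • a, by rw [map_smul, algebraMap_smul]⟩

theorem exists_normalData (ρbar : ResidualGaloisRep k) (h : ρbar.IsAbsolutelyIrreducible)
    (b : Module.Basis (Fin 2) k ρbar.V) :
    ∃ D : NormalData 𝒪, ∀ σ, D.rbar σ = LinearMap.toMatrix b b (ρbar.ρ σ) := by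
  let r : MRep k := (LinearMap.toMatrixAlgEquiv b).toRingEquiv.toRingHom.toMonoidHom.comp ρbar.ρ
  have hs : Function.Surjective (evRep (𝒪 := 𝒪) r) :=
    evRep_surjective_of_span_eq_top Ideal.Quotient.mk_surjective
      (span_range_eq_top_of_isAbsolutelyIrreducible ρbar h b)
  obtain ⟨u, hu⟩ := hs (Matrix.single 0 0 1)
  obtain ⟨w, hw⟩ := hs (Matrix.single 1 0 1)
  exact ⟨⟨r, u, w, hu, hw⟩, fun σ => rfl⟩

namespace NormalData

variable (D : NormalData 𝒪)

/-- The normality equations. -/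
def IsNormal (N : MRep A) : Prop :=
  evRep N D.u 1 0 = 0 ∧ evRep N D.w 0 0 = 0 ∧ evRep N D.w 1 0 = 1

theorem isNormal_rbar : D.IsNormal D.rbar := by
  simp [IsNormal, D.u_spec, D.w_spec]

theorem IsNormal.map {D : NormalData 𝒪} {N : MRep A} (h : D.IsNormal N) (φ : A →ₐ[𝒪] B) :
    D.IsNormal (mapRep (φ : A →+* B) N) := by
  obtain ⟨h1, h2, h3⟩ := h
  simp only [IsNormal, ← map_evRep φ N, Matrix.map_apply, h1, h2, h3, map_zero, map_one, and_self]

variable [IsLocalRing A]

variable (hl : IsLocalHom (algebraMap 𝒪 A))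
  (hs : Function.Surjective (residue A ∘ algebraMap 𝒪 A))

/-- `N` lifts the residual matrices. -/
def Reduces (N : MRep A) : Prop := mapRep (toResidue hl hs : A →+* k) N = D.rbar

variable {D hl hs}

theorem Reduces.map [IsLocalRing B] {hlB : IsLocalHom (algebraMap 𝒪 B)}
    {hsB : Function.Surjective (residue B ∘ algebraMap 𝒪 B)} {N : MRep A}
    (h : D.Reduces hl hs N) (φ : A →ₐ[𝒪] B) (hφ : IsLocalHom (φ : A →+* B)) :
    D.Reduces hlB hsB (mapRep (φ : A →+* B) N) := by
  rw [Reduces, mapRep_mapRep, ← h, ← toResidue_comp hl hs hlB hsB φ hφ]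
  rfl

theorem Reduces.evRep_map {N : MRep A} (h : D.Reduces hl hs N) (x : MonoidAlgebra 𝒪 GQ)
    (i j : Fin 2) : toResidue hl hs (evRep N x i j) = evRep D.rbar x i j := by
  rw [← h]
  exact congrFun (congrFun (map_evRep (toResidue hl hs) N x) i) j

/-- Uniqueness: conjugate normal lifts are equal. -/
theorem eq_of_conj {N N' : MRep A} (hN : D.IsNormal N) (hN' : D.IsNormal N')
    (rN : D.Reduces hl hs N) (rN' : D.Reduces hl hs N') (g : (Matrix (Fin 2) (Fin 2) A)ˣ)
    (hg : ∀ σ, (g : Matrix (Fin 2) (Fin 2) A) * N σ = N' σ * g) : N = N' := by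
  have hu := evRep_conj _ hg D.u
  have hw := evRep_conj _ hg D.w
  have e10 := congrFun (congrFun hu 1) 0
  have f00 := congrFun (congrFun hw 0) 0
  have f10 := congrFun (congrFun hw 1) 0
  simp only [Matrix.mul_apply, Fin.sum_univ_two, hN.1, hN'.1, hN.2.1, hN.2.2, hN'.2.1, hN'.2.2]
    at e10 f00 f10
  have hg10 : (g : Matrix (Fin 2) (Fin 2) A) 1 0 = 0 := by
    have hne : IsUnit (evRep N D.u 0 0 - evRep N' D.u 1 1) := by
      refine notMem_maximalIdeal.mp fun hm => ?_
      rw [← toResidue_eq_zero_iff hl hs, map_sub, rN.evRep_map, rN'.evRep_map, D.u_spec] at hm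
      simp at hm
    refine (hne.mul_right_eq_zero).mp ?_
    linear_combination e10
  have hg01 : (g : Matrix (Fin 2) (Fin 2) A) 0 1 = 0 := by
    rw [hg10] at f00; simpa using f00
  have hg11 : (g : Matrix (Fin 2) (Fin 2) A) 1 1 = (g : Matrix (Fin 2) (Fin 2) A) 0 0 := by
    rw [hg10] at f10; simpa using f10
  have hscal : (g : Matrix (Fin 2) (Fin 2) A) =
      Matrix.scalar (Fin 2) ((g : Matrix (Fin 2) (Fin 2) A) 0 0) := by
    ext i j
    fin_cases i <;> fin_cases j <;> simp [hg10, hg01, hg11]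
  refine MonoidHom.ext fun σ => g.isUnit.mul_left_cancel ?_
  rw [hg σ, hscal]
  exact ((Matrix.scalar_commute _ (fun r => Commute.all _ _) (N' σ)).eq).symm

/-- Existence of a normal representative. -/
theorem exists_normal [HenselianRing A (maximalIdeal A)] (M : MRep A)
    (hM : ∃ g : (Matrix (Fin 2) (Fin 2) k)ˣ, ∀ σ, (g : Matrix (Fin 2) (Fin 2) k) *
      (M σ).map (toResidue hl hs) = D.rbar σ * g) :
    ∃ (g : (Matrix (Fin 2) (Fin 2) A)ˣ) (N : MRep A),
      (∀ σ, (g : Matrix (Fin 2) (Fin 2) A) * M σ = N σ * g) ∧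
        D.IsNormal N ∧ D.Reduces hl hs N := by
  have hπ : Function.Surjective (toResidue hl hs) := fun c => by
    obtain ⟨x, rfl⟩ := residue_surjective c
    exact ⟨algebraMap 𝒪 A x, AlgHom.commutes _ x⟩
  have hlift : ∀ g : (Matrix (Fin 2) (Fin 2) k)ˣ, ∀ h : Matrix (Fin 2) (Fin 2) A,
      h.map (toResidue hl hs) = g → IsUnit h := by
    intro g h hh
    rw [Matrix.isUnit_iff_isUnit_det]
    refine notMem_maximalIdeal.mp fun hm => ?_
    rw [← toResidue_eq_zero_iff hl hs, AlgHom.map_det, AlgHom.mapMatrix_apply, hh] at hm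
    exact ((Matrix.isUnit_iff_isUnit_det _).mp g.isUnit).ne_zero hm
  -- first make the reduction equal to `rbar`
  obtain ⟨g₀, hg₀⟩ := hM
  obtain ⟨h₀, hh₀⟩ : ∃ h : Matrix (Fin 2) (Fin 2) A, h.map (toResidue hl hs) = g₀ :=
    ⟨(g₀ : Matrix (Fin 2) (Fin 2) k).map (Function.surjInv hπ), by
      ext i j; exact Function.surjInv_eq hπ _⟩
  obtain ⟨G₀, rfl⟩ := hlift g₀ h₀ hh₀
  let conj : (Matrix (Fin 2) (Fin 2) A)ˣ → MRep A → MRep A := fun g N =>
    { toFun := fun σ => (g : Matrix (Fin 2) (Fin 2) A) * N σ * (g⁻¹ : (Matrix (Fin 2) (Fin 2) A)ˣ)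
      map_one' := by simp
      map_mul' := fun σ τ => by simp [map_mul, mul_assoc] }
  have hconj : ∀ (g : (Matrix (Fin 2) (Fin 2) A)ˣ) (N : MRep A) (σ : GQ), (g : Matrix (Fin 2) (Fin 2) A) * N σ = conj g N σ * g := by
    intro g N σ
    simp [conj, mul_assoc]
  set M₁ := conj G₀ M with hM₁
  have rM₁ : D.Reduces hl hs M₁ := by
    refine MonoidHom.ext fun σ => g₀.isUnit.mul_right_cancel ?_
    rw [mapRep_apply, ← hg₀ σ, ← hh₀]
    have := congrArg (AlgHom.mapMatrix (toResidue hl hs)) (hconj G₀ M σ)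
    simp only [map_mul] at this
    exact this.symm
  -- the eigenvector
  set a := evRep M₁ D.u 0 0 with ha
  set b := evRep M₁ D.u 0 1 with hb
  set c := evRep M₁ D.u 1 0 with hc
  set d := evRep M₁ D.u 1 1 with hd
  have ra : toResidue hl hs a = 1 := by rw [ha, rM₁.evRep_map, D.u_spec]; simp
  have rb : toResidue hl hs b = 0 := by rw [hb, rM₁.evRep_map, D.u_spec]; simp
  have rc : toResidue hl hs c = 0 := by rw [hc, rM₁.evRep_map, D.u_spec]; simp
  have rd : toResidue hl hs d = 0 := by rw [hd, rM₁.evRep_map, D.u_spec]; simp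
  obtain ⟨lam, hroot, hlam⟩ := HenselianRing.is_henselian (I := maximalIdeal A)
    (X ^ 2 - C (a + d) * X + C (a * d - b * c)) (by monicity!) 1
    (by rw [← toResidue_eq_zero_iff hl hs]; simp [ra, rb, rc, rd])
    (by
      refine IsUnit.map _ (notMem_maximalIdeal.mp fun hm => ?_)
      rw [← toResidue_eq_zero_iff hl hs] at hm
      simp [ra, rd] at hm)
  have rlam : toResidue hl hs lam = 1 := by
    rw [← sub_eq_zero, ← map_one (toResidue hl hs), ← map_sub, toResidue_eq_zero_iff]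
    exact hlam
  have hld : IsUnit (lam - d) := by
    refine notMem_maximalIdeal.mp fun hm => ?_
    rw [← toResidue_eq_zero_iff hl hs] at hm
    simp [rlam, rd] at hm
  obtain ⟨e, he⟩ := hld.exists_right_inv
  set x := c * e with hx
  have hroot' : lam ^ 2 - (a + d) * lam + (a * d - b * c) = 0 := by
    simpa [IsRoot] using hroot
  have row1 : a + b * x = lam := by
    rw [hx]
    linear_combination (lam - a) * he - e * hroot'
  have row2 : c + d * x = lam * x := by
    rw [hx]
    linear_combination (-c) * he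
  have rx : toResidue hl hs x = 0 := by rw [hx, map_mul, rc, zero_mul]
  -- the change of basis
  let v₂ : Fin 2 → A := fun i => evRep M₁ D.w i 0 + evRep M₁ D.w i 1 * x
  have rv₂ : ∀ i, toResidue hl hs (v₂ i) = evRep D.rbar D.w i 0 := fun i => by
    simp [v₂, rx, rM₁.evRep_map]
  let P : Matrix (Fin 2) (Fin 2) A := !![1, v₂ 0; x, v₂ 1]
  have rP : P.map (toResidue hl hs) = (1 : Matrix (Fin 2) (Fin 2) k) := by
    ext i j
    fin_cases i <;> fin_cases j <;> simp [P, rx, rv₂, D.w_spec]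
  obtain ⟨Q, hQ⟩ := hlift 1 P rP
  set N := conj Q⁻¹ M₁ with hN
  refine ⟨Q⁻¹ * G₀, N, fun σ => ?_, ?_, ?_⟩
  · rw [Units.val_mul, mul_assoc, hconj G₀ M σ, ← mul_assoc, hconj Q⁻¹ M₁ σ, mul_assoc]
  · have key : ∀ z, (Q : Matrix (Fin 2) (Fin 2) A) * evRep N z = evRep (𝒪 := 𝒪) M₁ z * Q := by
      intro z
      refine evRep_conj _ (fun σ => ?_) z
      simp [hN, conj, mul_assoc]
    have hu : evRep N D.u = (↑Q⁻¹ : Matrix (Fin 2) (Fin 2) A) * (evRep M₁ D.u * Q) := by
      rw [← key, ← mul_assoc, Units.inv_mul, one_mul]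
    have hw : evRep N D.w = (↑Q⁻¹ : Matrix (Fin 2) (Fin 2) A) * (evRep M₁ D.w * Q) := by
      rw [← key, ← mul_assoc, Units.inv_mul, one_mul]
    have hQi : (↑Q⁻¹ : Matrix (Fin 2) (Fin 2) A) * P = 1 := by rw [← hQ, Units.inv_mul]
    have i10 := congrFun (congrFun hQi 1) 0
    have i01 := congrFun (congrFun hQi 0) 1
    have i11 := congrFun (congrFun hQi 1) 1
    simp only [Matrix.mul_apply, Fin.sum_univ_two, P, Matrix.cons_val', Matrix.of_apply,
      Matrix.cons_val_zero, Matrix.cons_val_one, Matrix.cons_val_fin_one, mul_one, v₂,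
      Matrix.one_apply_ne (one_ne_zero : (1 : Fin 2) ≠ 0),
      Matrix.one_apply_ne (zero_ne_one : (0 : Fin 2) ≠ 1), Matrix.one_apply_eq] at i10 i01 i11
    refine ⟨?_, ?_, ?_⟩
    · rw [hu, hQ]
      simp only [Matrix.mul_apply, Fin.sum_univ_two, P, Matrix.cons_val', Matrix.of_apply,
        Matrix.cons_val_zero, Matrix.cons_val_one, Matrix.cons_val_fin_one, mul_one, v₂]
      rw [← ha, ← hb, ← hc, ← hd, row1, row2]
      linear_combination lam * i10
    · rw [hw, hQ]
      simp only [Matrix.mul_apply, Fin.sum_univ_two, P, Matrix.cons_val', Matrix.of_apply,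
        Matrix.cons_val_zero, Matrix.cons_val_one, Matrix.cons_val_fin_one, mul_one, v₂]
      exact i01
    · rw [hw, hQ]
      simp only [Matrix.mul_apply, Fin.sum_univ_two, P, Matrix.cons_val', Matrix.of_apply,
        Matrix.cons_val_zero, Matrix.cons_val_one, Matrix.cons_val_fin_one, mul_one, v₂]
      exact i11
  · refine MonoidHom.ext fun σ => ?_
    have h1 := congrArg (AlgHom.mapMatrix (toResidue hl hs)) (hconj Q⁻¹ M₁ σ)
    have h2 : AlgHom.mapMatrix (toResidue hl hs) (↑Q⁻¹ : Matrix (Fin 2) (Fin 2) A) = 1 := by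
      have := congrArg (AlgHom.mapMatrix (toResidue hl hs)) Q.inv_mul
      rwa [map_mul, map_one, AlgHom.mapMatrix_apply (toResidue hl hs) (Q : Matrix (Fin 2) (Fin 2) A),
        hQ, rP, mul_one] at this
    rw [map_mul, map_mul, h2, one_mul, mul_one] at h1
    rw [← rM₁]
    exact h1.symm

end NormalData

end Fermat.Agent.DefRing
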