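import Mathlib.RingTheory.MvPowerSeries.Equiv
import Mathlib.RingTheory.MvPowerSeries.Inverse
import Mathlib.RingTheory.AdicCompletion.Noetherian
import Mathlib.RingTheory.AdicCompletion.Completeness
import Mathlib.RingTheory.LocalRing.ResidueField.Basic
import Mathlib.RingTheory.Ideal.Quotient.Index

/-!
# Power series in finitely many variables over a complete Noetherian local ring
-/

set_option autoImplicit false

open IsLocalRing MvPowerSeries Finsupp

namespace Fermat.Agent.DefRing

variable {O : Type*} [CommRing O] [IsLocalRing O] {σ : Type*}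

theorem mem_maximalIdeal_iff_constantCoeff (f : MvPowerSeries σ O) :
    f ∈ maximalIdeal (MvPowerSeries σ O) ↔ constantCoeff f ∈ maximalIdeal O := by
  simp [mem_maximalIdeal, mem_nonunits_iff, isUnit_iff_constantCoeff]

theorem X_mem_maximalIdeal (i : σ) : (X i : MvPowerSeries σ O) ∈ maximalIdeal _ := by
  rw [mem_maximalIdeal_iff_constantCoeff, constantCoeff_X]
  exact zero_mem _

theorem span_X_le_maximalIdeal :
    Ideal.span (Set.range X) ≤ maximalIdeal (MvPowerSeries σ O) :=
  Ideal.span_le.mpr (Set.range_subset_iff.mpr X_mem_maximalIdeal)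

theorem coeff_mem_of_mem_pow_maximalIdeal {n : ℕ} {f : MvPowerSeries σ O}
    (hf : f ∈ maximalIdeal (MvPowerSeries σ O) ^ n) (e : σ →₀ ℕ) :
    coeff e f ∈ maximalIdeal O ^ (n - degree e) := by
  classical
  induction n generalizing f e with
  | zero => simp
  | succ n ih =>
    rw [pow_succ] at hf
    refine Submodule.mul_induction_on hf ?_ ?_
    · intro a ha b hb
      rw [coeff_mul]
      refine sum_mem fun p hp => ?_
      rw [Finset.mem_antidiagonal] at hp
      have hd : degree e = degree p.1 + degree p.2 := by rw [← hp, map_add]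
      have hb' : coeff p.2 b ∈ maximalIdeal O ^ (1 - degree p.2) := by
        by_cases h : p.2 = 0
        · rw [h, map_zero, Nat.sub_zero, pow_one, coeff_zero_eq_constantCoeff]
          exact (mem_maximalIdeal_iff_constantCoeff b).mp hb
        · have : degree p.2 ≠ 0 := by simpa [Finsupp.degree_eq_zero_iff] using h
          rw [show 1 - degree p.2 = 0 by omega]
          simp
      refine Ideal.pow_le_pow_right ?_ ((pow_add (maximalIdeal O) _ _).symm ▸
        Ideal.mul_mem_mul (ih ha p.1) hb')
      omega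
    · intro x y hx hy
      rw [map_add]
      exact add_mem hx hy

variable [Finite σ]

omit [IsLocalRing O] in
theorem sub_truncTotal_mem_span_pow (f : MvPowerSeries σ O) (n : ℕ) :
    f - (truncTotal n f : MvPowerSeries σ O) ∈ Ideal.span (Set.range X) ^ n := by
  set g := f - (truncTotal n f : MvPowerSeries σ O) with hg
  let e := toAdicCompletionAlgEquiv σ O
  let I := MvPolynomial.idealOfVars σ O
  have hev : AdicCompletion.eval I (MvPolynomial σ O) n (e g) = 0 := by
    show (toAdicCompletion σ O g).val n = 0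
    rw [toAdicCompletion_apply_eq_mk_truncTotal]
    have : truncTotal n g = 0 := by
      ext x
      rw [coeff_truncTotal_eq_ite]
      split_ifs with h
      · rw [hg, map_sub, MvPolynomial.coeff_coe, coeff_truncTotal _ h, sub_self, MvPolynomial.coeff_zero]
      · rw [MvPolynomial.coeff_zero]
    rw [this]
    exact map_zero _
  have hker : e g ∈ (I ^ n • ⊤ : Submodule (MvPolynomial σ O)
      (AdicCompletion I (MvPolynomial σ O))) := by
    rw [AdicCompletion.pow_smul_top_eq_ker_eval (MvPolynomial.idealOfVars_fg σ O)]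
    exact hev
  have hg' : g ∈ (I ^ n • ⊤ : Submodule (MvPolynomial σ O) (MvPowerSeries σ O)) := by
    have := Submodule.mem_map_of_mem (f := e.symm.toLinearMap) hker
    rw [Submodule.map_smul''] at this
    simpa [AlgEquiv.toLinearMap_apply] using
      Submodule.smul_mono (le_refl _) le_top this
  rw [Ideal.smul_top_eq_map, Submodule.restrictScalars_mem, Ideal.map_pow] at hg'
  refine (Ideal.pow_right_mono ?_ n) hg'
  rw [show I = Ideal.span (Set.range MvPolynomial.X) from rfl, Ideal.map_span, Ideal.span_le]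
  rintro _ ⟨_, ⟨i, rfl⟩, rfl⟩
  refine Ideal.subset_span ⟨i, ?_⟩
  rw [← MvPolynomial.coe_X]
  rfl

omit [Finite σ] in
theorem coe_mem_pow_maximalIdeal {n : ℕ} (p : MvPolynomial σ O)
    (h : ∀ e : σ →₀ ℕ, p.coeff e ∈ maximalIdeal O ^ (n - degree e)) :
    (p : MvPowerSeries σ O) ∈ maximalIdeal (MvPowerSeries σ O) ^ n := by
  classical
  rw [p.as_sum, ← MvPolynomial.coeToMvPowerSeries.ringHom_apply, map_sum]
  refine sum_mem fun e _ => ?_
  rw [MvPolynomial.monomial_eq, map_mul, MvPolynomial.coeToMvPowerSeries.ringHom_apply,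
    MvPolynomial.coe_C]
  have h1 : C (p.coeff e) ∈ maximalIdeal (MvPowerSeries σ O) ^ (n - degree e) := by
    have hle : (maximalIdeal O).map C ≤ maximalIdeal (MvPowerSeries σ O) :=
      Ideal.map_le_iff_le_comap.mpr fun a ha => by
        rw [Ideal.mem_comap, mem_maximalIdeal_iff_constantCoeff, constantCoeff_C]
        exact ha
    exact Ideal.pow_right_mono hle _ (Ideal.map_pow C (maximalIdeal O) _ ▸
      Ideal.mem_map_of_mem C (h e))
  have h2 : MvPolynomial.coeToMvPowerSeries.ringHom (e.prod fun i j => MvPolynomial.X i ^ j) ∈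
      maximalIdeal (MvPowerSeries σ O) ^ degree e := by
    rw [show degree e = ∑ i ∈ e.support, e i from rfl, Finsupp.prod, map_prod,
      ← Finset.prod_pow_eq_pow_sum]
    refine Ideal.prod_mem_prod fun i _ => ?_
    rw [map_pow, MvPolynomial.coeToMvPowerSeries.ringHom_apply, MvPolynomial.coe_X]
    exact Ideal.pow_mem_pow (X_mem_maximalIdeal i) _
  refine Ideal.pow_le_pow_right ?_ ((pow_add (maximalIdeal (MvPowerSeries σ O)) _ _).symm ▸
    Ideal.mul_mem_mul h1 h2)
  omega

theorem mem_pow_maximalIdeal_iff {n : ℕ} {f : MvPowerSeries σ O} :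
    f ∈ maximalIdeal (MvPowerSeries σ O) ^ n ↔
      ∀ e : σ →₀ ℕ, coeff e f ∈ maximalIdeal O ^ (n - degree e) := by
  refine ⟨fun h e => coeff_mem_of_mem_pow_maximalIdeal h e, fun h => ?_⟩
  have h1 := Ideal.pow_right_mono span_X_le_maximalIdeal n (sub_truncTotal_mem_span_pow f n)
  have h2 : (truncTotal n f : MvPowerSeries σ O) ∈ maximalIdeal (MvPowerSeries σ O) ^ n :=
    coe_mem_pow_maximalIdeal _ fun e => by
      rw [coeff_truncTotal_eq_ite]
      split_ifs
      · exact h e
      · exact zero_mem _
  simpa using add_mem h1 h2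

variable [IsNoetherianRing O]

theorem isAdicComplete_mvPowerSeries [IsAdicComplete (maximalIdeal O) O] :
    IsAdicComplete (maximalIdeal (MvPowerSeries σ O)) (MvPowerSeries σ O) where
  prec' f hf := by
    have hc : ∀ e : σ →₀ ℕ, ∃ L : O, ∀ n, coeff e (f (n + degree e)) ≡ L
        [SMOD (maximalIdeal O ^ n • ⊤ : Submodule O O)] := by
      intro e
      refine IsPrecomplete.prec inferInstance fun {m n} hmn => ?_
      rw [SModEq.sub_mem, smul_eq_mul, Ideal.mul_top, ← map_sub]
      have := hf (show m + degree e ≤ n + degree e by omega)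
      rw [SModEq.sub_mem, smul_eq_mul, Ideal.mul_top] at this
      simpa using coeff_mem_of_mem_pow_maximalIdeal this e
    choose L hL using hc
    obtain ⟨g, hg⟩ : ∃ g : MvPowerSeries σ O, ∀ e, coeff e g = L e :=
      ⟨fun e => L e, fun e => rfl⟩
    refine ⟨g, fun n => ?_⟩
    rw [SModEq.sub_mem, smul_eq_mul, Ideal.mul_top, mem_pow_maximalIdeal_iff]
    intro e
    by_cases he : degree e < n
    · have := hL e (n - degree e)
      rw [SModEq.sub_mem, smul_eq_mul, Ideal.mul_top,
        show n - degree e + degree e = n by omega] at this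
      rw [map_sub, hg]
      exact this
    · rw [show n - degree e = 0 by omega]
      simp

theorem finite_quotient_pow_maximalIdeal [Finite (ResidueField O)] (n : ℕ) :
    Finite (MvPowerSeries σ O ⧸ maximalIdeal (MvPowerSeries σ O) ^ n) := by
  have : Finite (MvPowerSeries σ O ⧸ maximalIdeal (MvPowerSeries σ O)) := by
    have : IsLocalHom (C : O →+* MvPowerSeries σ O) :=
      ⟨fun a ha => by simpa [isUnit_iff_constantCoeff] using ha⟩
    refine Finite.of_surjective
      (fun x : ResidueField O => ResidueField.map (C : O →+* MvPowerSeries σ O) x) ?_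
    intro y
    obtain ⟨f, rfl⟩ := residue_surjective y
    refine ⟨residue O (constantCoeff f), ?_⟩
    refine (ResidueField.map_residue _ _).trans ?_
    refine (Ideal.Quotient.mk_eq_mk_iff_sub_mem _ _).mpr ?_
    rw [mem_maximalIdeal_iff_constantCoeff, map_sub, constantCoeff_C, sub_self]
    exact zero_mem _
  exact Ideal.finite_quotient_pow (IsNoetherian.noetherian _) n

variable {A : Type*} [CommRing A] [Algebra O A] {I : Ideal A}

omit [IsLocalRing O] [IsNoetherianRing O] in
/-- Evaluation at elements of a nilpotent ideal. -/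
theorem exists_algHom_X_eq (hI : IsNilpotent I) (x : σ → A) (hx : ∀ i, x i ∈ I) :
    ∃ φ : MvPowerSeries σ O →ₐ[O] A, ∀ i, φ (X i) = x i := by
  obtain ⟨N, hN⟩ := hI
  have hker : ∀ p ∈ MvPolynomial.idealOfVars σ O ^ N, MvPolynomial.aeval x p = 0 := by
    intro p hp
    have := Ideal.mem_map_of_mem (MvPolynomial.aeval x : MvPolynomial σ O →ₐ[O] A).toRingHom hp
    rw [Ideal.map_pow] at this
    have hle : (MvPolynomial.idealOfVars σ O).map
        (MvPolynomial.aeval x : MvPolynomial σ O →ₐ[O] A).toRingHom ≤ I := by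
      rw [show MvPolynomial.idealOfVars σ O = Ideal.span (Set.range MvPolynomial.X) from rfl,
        Ideal.map_span, Ideal.span_le]
      rintro _ ⟨_, ⟨i, rfl⟩, rfl⟩
      simpa using hx i
    have := Ideal.pow_right_mono hle N this
    rwa [hN, Ideal.zero_eq_bot, Ideal.mem_bot] at this
  refine ⟨(Ideal.Quotient.liftₐ _ (MvPolynomial.aeval x) hker).comp
    ((truncTotalAlgHom σ O N).restrictScalars O), fun i => ?_⟩
  have h : truncTotalAlgHom σ O N (X i) =
      Ideal.Quotient.mk (MvPolynomial.idealOfVars σ O ^ N) (MvPolynomial.X i) := by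
    have := (truncTotalAlgHom σ O N).commutes (MvPolynomial.X i)
    rw [show algebraMap (MvPolynomial σ O) (MvPowerSeries σ O) (MvPolynomial.X i) = X i by
      rw [← MvPolynomial.coe_X]; rfl] at this
    exact this
  rw [AlgHom.comp_apply, AlgHom.restrictScalars_apply, h, Ideal.Quotient.liftₐ_apply]
  exact (Ideal.Quotient.lift_mk _ _ _).trans (MvPolynomial.aeval_X x i)

omit [IsNoetherianRing O] [IsLocalRing O] in
/-- Two local algebra maps to a ring with nilpotent maximal ideal agreeing on `X` are equal. -/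
theorem algHom_ext_of_X {φ ψ : MvPowerSeries σ O →ₐ[O] A} (hI : IsNilpotent I)
    (hφ : ∀ i, φ (X i) ∈ I) (h : ∀ i, φ (X i) = ψ (X i)) : φ = ψ := by
  obtain ⟨N, hN⟩ := hI
  have htail : ∀ (θ : MvPowerSeries σ O →ₐ[O] A), (∀ i, θ (X i) ∈ I) → ∀ f,
      θ f = θ (truncTotal N f : MvPowerSeries σ O) := by
    intro θ hθ f
    have := Ideal.mem_map_of_mem θ.toRingHom (sub_truncTotal_mem_span_pow f N)
    rw [Ideal.map_pow, Ideal.map_span] at this
    have hle : Ideal.span (θ.toRingHom '' Set.range X) ≤ I := by
      rw [Ideal.span_le]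
      rintro _ ⟨_, ⟨i, rfl⟩, rfl⟩
      exact hθ i
    have := Ideal.pow_right_mono hle N this
    rw [hN, Ideal.zero_eq_bot, Ideal.mem_bot] at this
    rw [← sub_eq_zero, ← map_sub]
    exact this
  have hp : φ.comp (MvPolynomial.coeToMvPowerSeries.algHom O) =
      ψ.comp (MvPolynomial.coeToMvPowerSeries.algHom O) := by
    refine MvPolynomial.algHom_ext fun i => ?_
    simpa [MvPolynomial.coeToMvPowerSeries.algHom_apply] using h i
  refine AlgHom.ext fun f => ?_
  rw [htail φ hφ f, htail ψ (fun i => h i ▸ hφ i) f]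
  simpa [MvPolynomial.coeToMvPowerSeries.algHom_apply] using AlgHom.congr_fun hp (truncTotal N f)

end Fermat.Agent.DefRing
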