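import Fermat.Agent.DefRing.Tangent

/-!
# Universal deformations of bounded nilpotency

Among the deformation algebras generated by their matrix entries and killed by `m ^ n`, one of
largest cardinality maps uniquely to every other deformation killed by `m ^ n`.
-/

set_option autoImplicit false

open IsLocalRing GaloisRep

namespace Fermat.Agent.DefRing

variable {𝒪 : Type} [CommRing 𝒪] [IsLocalRing 𝒪]

local notation "k" => IsLocalRing.ResidueField 𝒪

variable (D : NormalData 𝒪)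
  (𝒟 : ∀ ⦃A : Type⦄ [CommRing A] [IsLocalRing A] [Algebra 𝒪 A], GaloisRepAdic A → Prop)

/-- A generated normal deformation killed by `m ^ n`. -/
structure DefAlg (n : ℕ) : Type 1 where
  carrier : Type
  [commRing : CommRing carrier]
  [localRing : IsLocalRing carrier]
  [algebra : Algebra 𝒪 carrier]
  test : IsArtinianTestAlgebra 𝒪 carrier
  rep : MRep carrier
  isDef : IsDef D 𝒟 test.isLocalHom test.residue_surjective rep
  gen : Algebra.adjoin 𝒪 (entries rep) = ⊤
  pow : maximalIdeal carrier ^ n = ⊥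

attribute [instance] DefAlg.commRing DefAlg.localRing DefAlg.algebra

variable {D 𝒟}

section Lemmas

variable {A B C : Type} [CommRing A] [Algebra 𝒪 A] [CommRing B] [Algebra 𝒪 B]
  [CommRing C] [Algebra 𝒪 C]

omit [IsLocalRing 𝒪] in
/-- Factor an algebra map through a surjection. -/
theorem exists_comp_eq {f : A →ₐ[𝒪] B} (hf : Function.Surjective f) (g : A →ₐ[𝒪] C)
    (h : ∀ a, f a = 0 → g a = 0) : ∃ θ : B →ₐ[𝒪] C, θ.comp f = g := by
  refine ⟨(Ideal.Quotient.liftₐ (RingHom.ker f) g fun a ha => h a ha).comp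
    (Ideal.quotientKerAlgEquivOfSurjective hf).symm.toAlgHom, ?_⟩
  refine AlgHom.ext fun a => ?_
  have : (Ideal.quotientKerAlgEquivOfSurjective hf).symm (f a) =
      Ideal.Quotient.mk (RingHom.ker f) a := by
    rw [AlgEquiv.symm_apply_eq]; rfl
  rw [AlgHom.comp_apply, AlgHom.comp_apply]
  refine Eq.trans (congrArg _ this) ?_
  rfl

omit [IsLocalRing 𝒪] in
theorem range_eq_top_of_mapRep {N : MRep B} (hgen : Algebra.adjoin 𝒪 (entries N) = ⊤)
    {M : MRep A} (φ : A →ₐ[𝒪] B) (h : mapRep (φ : A →+* B) M = N) : Function.Surjective φ := by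
  rw [← AlgHom.range_eq_top, eq_top_iff, ← hgen]
  refine Algebra.adjoin_le ?_
  rintro _ ⟨⟨σ, i, j⟩, rfl⟩
  exact ⟨M σ i j, congrFun (congrFun (DFunLike.congr_fun h σ) i) j⟩

omit [IsLocalRing 𝒪] in
theorem exists_corestrict (S : Subalgebra 𝒪 A) (N : MRep A) (h : ∀ σ i j, N σ i j ∈ S) :
    ∃ M : MRep S, mapRep (S.val : S →+* A) M = N := by
  have hinj : Function.Injective fun M : Matrix (Fin 2) (Fin 2) S => M.map (S.val : S →+* A) :=
    Matrix.map_injective Subtype.val_injective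
  refine ⟨{
    toFun := fun σ => Matrix.of fun i j => (⟨N σ i j, h σ i j⟩ : S)
    map_one' := hinj ?_
    map_mul' := fun σ τ => hinj ?_ }, ?_⟩
  · show _ = Matrix.map (1 : Matrix (Fin 2) (Fin 2) S) (S.val : S →+* A)
    rw [Matrix.map_one _ (map_zero _) (map_one _)]
    exact (Matrix.ext fun i j => rfl).trans (map_one N)
  · dsimp only
    rw [Matrix.map_mul]
    exact (Matrix.ext fun i j => rfl).trans
      ((map_mul N σ τ).trans (congrArg₂ (· * ·) (Matrix.ext fun i j => rfl)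
        (Matrix.ext fun i j => rfl)))
  · exact MonoidHom.ext fun σ => Matrix.ext fun i j => rfl

omit [IsLocalRing 𝒪] in
theorem exists_prodRep (N : MRep A) (M : MRep B) :
    ∃ P : MRep (A × B), mapRep (RingHom.fst A B) P = N ∧ mapRep (RingHom.snd A B) P = M := by
  refine ⟨{
    toFun := fun σ => Matrix.of fun i j => (N σ i j, M σ i j)
    map_one' := ?_
    map_mul' := fun σ τ => ?_ }, MonoidHom.ext fun σ => rfl, MonoidHom.ext fun σ => rfl⟩
  · ext i j <;> simp [Matrix.one_apply] <;> split_ifs <;> rfl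
  · ext i j <;> simp [Matrix.mul_apply, Fin.sum_univ_two]

theorem exists_toAdic_ofResidual {F : Type} [Field F] (ρ : ResidualGaloisRep F)
    (b : Module.Basis (Fin 2) F ρ.V) (N : MRep F)
    (h : ∀ σ, N σ = LinearMap.toMatrix b b (ρ.ρ σ)) :
    ∃ hc : IsCont N, (GaloisRepAdic.ofResidualGaloisRep ρ).IsEquiv (toAdic N hc) := by
  let r := GaloisRepAdic.ofResidualGaloisRep ρ
  let b' : Module.Basis (Fin 2) F r.V := b
  have hm : matrixRep r b' = N := MonoidHom.ext fun σ => (h σ).symm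
  have hc : IsCont (matrixRep r b') := isCont_matrixRep r b'
  rw [hm] at hc
  exact ⟨hc, isEquiv_toAdic_matrixRep r b' hm hc⟩

/-- Two projections identify a fibre product, so the pair of deformations gives one on it. -/
theorem isDef_of_fibreProduct [IsLocalRing A] [IsLocalRing B] [IsLocalRing C] {P : Type}
    [CommRing P] [IsLocalRing P] [Algebra 𝒪 P] (h𝒟 : IsDeformationCondition 𝒪 𝒟)
    (hA : IsArtinianTestAlgebra 𝒪 A) (hB : IsArtinianTestAlgebra 𝒪 B)
    (hC : IsArtinianTestAlgebra 𝒪 C) (hP : IsArtinianTestAlgebra 𝒪 P)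
    (f : A →ₐ[𝒪] C) (g : B →ₐ[𝒪] C) (pA : P →ₐ[𝒪] A) (pB : P →ₐ[𝒪] B)
    (hcomm : f.comp pA = g.comp pB) (hinj : Function.Injective fun x => (pA x, pB x))
    (hsurj : ∀ a b, f a = g b → ∃ x, pA x = a ∧ pB x = b) {N : MRep P}
    (hNA : IsDef D 𝒟 hA.isLocalHom hA.residue_surjective (mapRep (pA : P →+* A) N))
    (hNB : IsDef D 𝒟 hB.isLocalHom hB.residue_surjective (mapRep (pB : P →+* B) N)) :
    IsDef D 𝒟 hP.isLocalHom hP.residue_surjective N := by
  have := hA.isArtinian
  have := hB.isArtinian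
  have := hP.isArtinian
  have hlA : IsLocalHom (pA : P →+* A) := isLocalHom_of_isArtinianRing _
  have hlB : IsLocalHom (pB : P →+* B) := isLocalHom_of_isArtinianRing _
  have hjoint : ∀ a b : P, pA a = pA b → pB a = pB b → a = b :=
    fun a b h1 h2 => hinj (Prod.ext h1 h2)
  have hcont : IsCont N := by
    obtain ⟨L, hL, h1⟩ := hNA.cont.finite_level
    obtain ⟨L', hL', h2⟩ := hNB.cont.finite_level
    refine isCont_of_finite_level ⟨L ⊔ L', inferInstance, fun σ hσ => ?_⟩
    have a1 := h1 σ fun x hx => hσ x (le_sup_left (b := L') hx)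
    have a2 := h2 σ fun x hx => hσ x (le_sup_right (a := L) hx)
    refine Matrix.ext fun i j => hjoint _ _ ?_ ?_
    · refine (congrFun (congrFun a1 i) j).trans ?_
      by_cases hij : i = j
      · rw [hij, Matrix.one_apply_eq, Matrix.one_apply_eq, map_one]
      · rw [Matrix.one_apply_ne hij, Matrix.one_apply_ne hij, map_zero]
    · refine (congrFun (congrFun a2 i) j).trans ?_
      by_cases hij : i = j
      · rw [hij, Matrix.one_apply_eq, Matrix.one_apply_eq, map_one]
      · rw [Matrix.one_apply_ne hij, Matrix.one_apply_ne hij, map_zero]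
  refine ⟨?_, ?_, hcont, h𝒟.of_fibreProduct hA hB hC hP f g pA pB hlA hlB hcomm hinj hsurj
    (h𝒟.of_isEquiv hA (isEquiv_symm (baseChangeAlong_toAdic_isEquiv N hcont _ hlA)) hNA.type)
    (h𝒟.of_isEquiv hB (isEquiv_symm (baseChangeAlong_toAdic_isEquiv N hcont _ hlB)) hNB.type)⟩
  · obtain ⟨a1, a2, a3⟩ := hNA.normal
    obtain ⟨b1, b2, b3⟩ := hNB.normal
    simp only [← map_evRep, Matrix.map_apply] at a1 a2 a3 b1 b2 b3
    exact ⟨hjoint _ _ (a1.trans (map_zero pA).symm) (b1.trans (map_zero pB).symm),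
      hjoint _ _ (a2.trans (map_zero pA).symm) (b2.trans (map_zero pB).symm),
      hjoint _ _ (a3.trans (map_one pA).symm) (b3.trans (map_one pB).symm)⟩
  · rw [NormalData.Reduces, ← toResidue_comp hP.isLocalHom hP.residue_surjective hA.isLocalHom
      hA.residue_surjective pA hlA, ← hNA.reduces, mapRep_mapRep]
    rfl

theorem map_algebraMap_maximalIdeal_le [IsLocalRing A] (hl : IsLocalHom (algebraMap 𝒪 A))
    (hs : Function.Surjective (residue A ∘ algebraMap 𝒪 A)) {a : A}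
    (ha : a ∈ (maximalIdeal 𝒪).map (algebraMap 𝒪 A)) :
    ∃ o ∈ maximalIdeal 𝒪, a - algebraMap 𝒪 A o ∈ maximalIdeal A ^ 2 := by
  rw [Ideal.map] at ha
  induction ha using Submodule.span_induction with
  | mem x hx =>
    obtain ⟨o, ho, rfl⟩ := hx
    exact ⟨o, ho, by simp⟩
  | zero => exact ⟨0, zero_mem _, by simp⟩
  | add x y _ _ hx hy =>
    obtain ⟨o, ho, h1⟩ := hx
    obtain ⟨o', ho', h2⟩ := hy
    exact ⟨o + o', add_mem ho ho', by
      rw [map_add, show x + y - (algebraMap 𝒪 A o + algebraMap 𝒪 A o') =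
        (x - algebraMap 𝒪 A o) + (y - algebraMap 𝒪 A o') by ring]
      exact add_mem h1 h2⟩
  | smul c x _ hx =>
    obtain ⟨o, ho, h1⟩ := hx
    obtain ⟨o', ho'⟩ := exists_algebraMap_add_mem hs c
    refine ⟨o' * o, Ideal.mul_mem_left _ _ ho, ?_⟩
    rw [smul_eq_mul, map_mul, show c * x - algebraMap 𝒪 A o' * algebraMap 𝒪 A o =
      c * (x - algebraMap 𝒪 A o) + (c - algebraMap 𝒪 A o') * algebraMap 𝒪 A o by ring]
    refine add_mem (Ideal.mul_mem_left _ _ h1) ?_
    rw [pow_two]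
    exact Ideal.mul_mem_mul ho' fun hu => ho (hl.map_nonunit o hu)

theorem isLocalHom_of_surjective' [IsLocalRing A] [IsLocalRing B] (f : A →+* B)
    (hf : Function.Surjective f) : IsLocalHom f := by
  refine ⟨fun a ha => notMem_maximalIdeal.mp fun hm => ?_⟩
  have h1 : (maximalIdeal B).comap f = maximalIdeal A :=
    eq_maximalIdeal (Ideal.comap_isMaximal_of_surjective f hf)
  rw [← h1, Ideal.mem_comap] at hm
  exact hm ha

theorem map_maximalIdeal_of_surjective [IsLocalRing A] [IsLocalRing B] (f : A →+* B)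
    (hf : Function.Surjective f) (n : ℕ) :
    (maximalIdeal A ^ n).map f = maximalIdeal B ^ n := by
  rw [Ideal.map_pow]
  congr 1
  have h1 : (maximalIdeal B).comap f = maximalIdeal A :=
    eq_maximalIdeal (Ideal.comap_isMaximal_of_surjective f hf)
  rw [← h1, Ideal.map_comap_of_surjective f hf]

theorem mem_pow_of_algHom [IsLocalRing A] [IsLocalRing B] (f : A →+* B) (hf : IsLocalHom f)
    {n : ℕ} {a : A} (ha : a ∈ maximalIdeal A ^ n) : f a ∈ maximalIdeal B ^ n := by
  have hle : (maximalIdeal A).map f ≤ maximalIdeal B :=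
    Ideal.map_le_iff_le_comap.mpr fun x hx => Ideal.mem_comap.mpr
      ((mem_maximalIdeal _).mpr fun hu => (mem_maximalIdeal x).mp hx (hf.map_nonunit x hu))
  exact Ideal.pow_right_mono hle n (Ideal.map_pow f (maximalIdeal A) n ▸ Ideal.mem_map_of_mem f ha)

end Lemmas

namespace DefAlg

variable [Finite (ResidueField 𝒪)] {n : ℕ}

theorem finite (X : DefAlg D 𝒟 n) : Finite X.carrier := finite_of_isArtinianTestAlgebra X.test

variable [IsNoetherianRing 𝒪] [Finite (TangentSet D 𝒟)]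

omit [IsNoetherianRing 𝒪] in
/-- Every deformation algebra is a quotient of the power series ring on the tangent index set. -/
theorem exists_surjective (h𝒟 : IsDeformationCondition 𝒪 𝒟) (X : DefAlg D 𝒟 n) :
    ∃ ψ : MvPowerSeries (TangentSet D 𝒟 → k) 𝒪 →ₐ[𝒪] X.carrier, Function.Surjective ψ := by
  have := X.test.isArtinian
  have hnil := isNilpotent_maximalIdeal_of_isArtinianRing (A := X.carrier)
  obtain ⟨x, hx, hgen⟩ := exists_generators h𝒟 X.test X.isDef X.gen
  obtain ⟨ψ, hψ⟩ := exists_algHom_X_eq (O := 𝒪) hnil x hx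
  refine ⟨ψ, ?_⟩
  rw [← AlgHom.range_eq_top]
  refine subalgebra_eq_top hnil X.test.residue_surjective _ fun a ha => ?_
  obtain ⟨t, ht⟩ := hgen a ha
  obtain ⟨y, hy, z, hz, hyz⟩ := Submodule.mem_sup.mp ht
  obtain ⟨o, -, ho⟩ := map_algebraMap_maximalIdeal_le X.test.isLocalHom
    X.test.residue_surjective hz
  refine ⟨x t + algebraMap 𝒪 X.carrier o, ⟨MvPowerSeries.X t + algebraMap 𝒪 _ o, by
    exact (map_add ψ _ _).trans (congrArg₂ (· + ·) (hψ t) (ψ.commutes o))⟩, ?_⟩
  rw [← sub_sub, ← hyz, add_sub_assoc]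
  exact add_mem hy ho

theorem card_le (h𝒟 : IsDeformationCondition 𝒪 𝒟) (X : DefAlg D 𝒟 n) :
    Nat.card X.carrier ≤ Nat.card (MvPowerSeries (TangentSet D 𝒟 → k) 𝒪 ⧸
      maximalIdeal (MvPowerSeries (TangentSet D 𝒟 → k) 𝒪) ^ n) := by
  obtain ⟨ψ, hψ⟩ := X.exists_surjective h𝒟
  have hker : ∀ f ∈ maximalIdeal (MvPowerSeries (TangentSet D 𝒟 → k) 𝒪) ^ n,
      ψ.toRingHom f = 0 := fun f hf => by
    have := mem_pow_of_algHom ψ.toRingHom (isLocalHom_of_surjective' _ hψ) hf
    rwa [X.pow, Ideal.mem_bot] at this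
  have := finite_quotient_pow_maximalIdeal (O := 𝒪) (σ := TangentSet D 𝒟 → k) n
  exact Nat.card_le_card_of_surjective _
    (Ideal.Quotient.lift_surjective_of_surjective _ hker hψ)

omit [IsNoetherianRing 𝒪] [Finite (TangentSet D 𝒟)] in
theorem nonempty_of_pos (h𝒟 : IsDeformationCondition 𝒪 𝒟) (ρbar : ResidualGaloisRep k)
    (b : Module.Basis (Fin 2) k ρbar.V) (hD : ∀ σ, D.rbar σ = LinearMap.toMatrix b b (ρbar.ρ σ))
    (hbar : 𝒟 (GaloisRepAdic.ofResidualGaloisRep ρbar)) (hn : 0 < n) :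
    Nonempty (DefAlg D 𝒟 n) := by
  have test : IsArtinianTestAlgebra 𝒪 k :=
    isArtinianTestAlgebra_of_toField (AlgHom.id 𝒪 k) fun c hc => ⟨1, by simpa using hc⟩
  have hm : maximalIdeal k = ⊥ :=
    (Ideal.eq_bot_or_top _).resolve_right (Ideal.IsMaximal.ne_top inferInstance)
  have hres : toResidue test.isLocalHom test.residue_surjective = AlgHom.id 𝒪 k :=
    (algHom_residueField_unique _ _ _ fun a ha => by rwa [hm, Ideal.mem_bot] at ha).symm
  obtain ⟨hcont, hequiv⟩ := exists_toAdic_ofResidual ρbar b D.rbar hD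
  exact ⟨{
    carrier := k
    test := test
    rep := D.rbar
    isDef := ⟨D.isNormal_rbar, by
      rw [NormalData.Reduces, hres]
      exact mapRep_id _, hcont,
      h𝒟.of_isEquiv test hequiv hbar⟩
    gen := Algebra.eq_top_iff.mpr fun c => by
      obtain ⟨o, rfl⟩ := residue_surjective c
      exact Subalgebra.algebraMap_mem _ o
    pow := by rw [hm, Ideal.bot_pow (by omega)] }⟩

/-- A deformation algebra of largest size. -/
theorem exists_max (h𝒟 : IsDeformationCondition 𝒪 𝒟) (hne : Nonempty (DefAlg D 𝒟 n)) :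
    ∃ X : DefAlg D 𝒟 n, ∀ Y : DefAlg D 𝒟 n, Nat.card Y.carrier ≤ Nat.card X.carrier := by
  have hfin : (Set.range fun Y : DefAlg D 𝒟 n => Nat.card Y.carrier).Finite :=
    (Set.finite_Iic (Nat.card (MvPowerSeries (TangentSet D 𝒟 → k) 𝒪 ⧸
      maximalIdeal (MvPowerSeries (TangentSet D 𝒟 → k) 𝒪) ^ n))).subset
      (Set.range_subset_iff.mpr fun Y => Y.card_le h𝒟)
  obtain ⟨_, ⟨X, rfl⟩, hX⟩ := Set.exists_max_image _ id hfin (Set.range_nonempty _)
  exact ⟨X, fun Y => hX _ ⟨Y, rfl⟩⟩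

omit [IsNoetherianRing 𝒪] [Finite (TangentSet D 𝒟)] in
/-- The subalgebra generated by the entries of a deformation. -/
theorem exists_generated (h𝒟 : IsDeformationCondition 𝒪 𝒟) {F : Type} [CommRing F]
    [IsLocalRing F] [Algebra 𝒪 F] (hF : IsArtinianTestAlgebra 𝒪 F) {N : MRep F}
    (hN : IsDef D 𝒟 hF.isLocalHom hF.residue_surjective N) (hpow : maximalIdeal F ^ n = ⊥) :
    ∃ (Y : DefAlg D 𝒟 n) (ι : Y.carrier →ₐ[𝒪] F),
      mapRep (ι : Y.carrier →+* F) Y.rep = N := by
  have := finite_of_isArtinianTestAlgebra hF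
  let S : Subalgebra 𝒪 F := Algebra.adjoin 𝒪 (entries N)
  let π : S →ₐ[𝒪] k := (toResidue hF.isLocalHom hF.residue_surjective).comp S.val
  have hnil : ∀ c : S, π c = 0 → IsNilpotent c := fun c hc => ⟨n, Subtype.ext (by
    have h := Ideal.pow_mem_pow
      ((toResidue_eq_zero_iff hF.isLocalHom hF.residue_surjective).mp hc) n
    rw [hpow, Ideal.mem_bot] at h
    simpa using h)⟩
  have : IsLocalRing S := isLocalRing_of_toField (C := S) π hnil
  have hS : IsArtinianTestAlgebra 𝒪 S := isArtinianTestAlgebra_of_toField π hnil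
  have := hS.isArtinian
  obtain ⟨NS, hNS⟩ := exists_corestrict S N fun σ i j => Algebra.subset_adjoin ⟨(σ, i, j), rfl⟩
  have hdef : IsDef D 𝒟 hS.isLocalHom hS.residue_surjective NS :=
    IsDef.descend h𝒟 hS hF S.val Subtype.val_injective (hNS.symm ▸ hN)
  have hgen : Algebra.adjoin 𝒪 (entries NS) = ⊤ := by
    refine eq_top_iff.mpr ((Algebra.adjoin_adjoin_coe_preimage (R := 𝒪)
      (s := entries N)).ge.trans (Algebra.adjoin_mono ?_))
    rintro c ⟨⟨σ, i, j⟩, hc⟩
    refine ⟨(σ, i, j), Subtype.ext ?_⟩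
    rw [← hc, ← hNS]
    rfl
  have hpowS : maximalIdeal S ^ n = ⊥ := by
    refine eq_bot_iff.mpr fun c hc => Ideal.mem_bot.mpr (Subtype.ext ?_)
    have h := mem_pow_of_algHom (S.val : S →+* F) (isLocalHom_of_isArtinianRing _) hc
    rw [hpow, Ideal.mem_bot] at h
    simpa using h
  exact ⟨⟨S, hS, NS, hdef, hgen, hpowS⟩, S.val, hNS⟩

omit [IsNoetherianRing 𝒪] [Finite (TangentSet D 𝒟)] in
/-- Two deformations killed by `m ^ n` are images of a single generated one. -/
theorem exists_join (h𝒟 : IsDeformationCondition 𝒪 𝒟) (X : DefAlg D 𝒟 n) {B : Type} [CommRing B]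
    [IsLocalRing B] [Algebra 𝒪 B] (hB : IsArtinianTestAlgebra 𝒪 B) {N : MRep B}
    (hN : IsDef D 𝒟 hB.isLocalHom hB.residue_surjective N) (hpow : maximalIdeal B ^ n = ⊥) :
    ∃ (Y : DefAlg D 𝒟 n) (p : Y.carrier →ₐ[𝒪] X.carrier) (q : Y.carrier →ₐ[𝒪] B),
      mapRep (p : Y.carrier →+* X.carrier) Y.rep = X.rep ∧
        mapRep (q : Y.carrier →+* B) Y.rep = N := by
  have := X.finite
  have := finite_of_isArtinianTestAlgebra hB
  let πA := toResidue X.test.isLocalHom X.test.residue_surjective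
  let πB := toResidue hB.isLocalHom hB.residue_surjective
  let F : Subalgebra 𝒪 (X.carrier × B) :=
    AlgHom.equalizer (πA.comp (AlgHom.fst 𝒪 X.carrier B)) (πB.comp (AlgHom.snd 𝒪 X.carrier B))
  let πF : F →ₐ[𝒪] k := (πA.comp (AlgHom.fst 𝒪 X.carrier B)).comp F.val
  have hmem : ∀ c : F, πF c = 0 →
      (c : X.carrier × B).1 ∈ maximalIdeal X.carrier ∧ (c : X.carrier × B).2 ∈ maximalIdeal B := by
    intro c hc
    refine ⟨(toResidue_eq_zero_iff X.test.isLocalHom X.test.residue_surjective).mp hc,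
      (toResidue_eq_zero_iff hB.isLocalHom hB.residue_surjective).mp ?_⟩
    exact (c.2 : πA (c : X.carrier × B).1 = πB (c : X.carrier × B).2).symm.trans hc
  have hnilF : ∀ c : F, πF c = 0 → IsNilpotent c := fun c hc => ⟨n, by
    obtain ⟨h1, h2⟩ := hmem c hc
    have e1 := Ideal.pow_mem_pow h1 n
    have e2 := Ideal.pow_mem_pow h2 n
    rw [X.pow, Ideal.mem_bot] at e1
    rw [hpow, Ideal.mem_bot] at e2
    exact Subtype.ext (Prod.ext (by simpa using e1) (by simpa using e2))⟩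
  have : IsLocalRing F := isLocalRing_of_toField πF hnilF
  have hF : IsArtinianTestAlgebra 𝒪 F := isArtinianTestAlgebra_of_toField πF hnilF
  obtain ⟨P, hP1, hP2⟩ := exists_prodRep X.rep N
  obtain ⟨NF, hNF⟩ := exists_corestrict F P fun σ i j => by
    show πA (P σ i j).1 = πB (P σ i j).2
    have e1 := congrFun (congrFun (DFunLike.congr_fun hP1 σ) i) j
    have e2 := congrFun (congrFun (DFunLike.congr_fun hP2 σ) i) j
    simp only [mapRep_apply, Matrix.map_apply, RingHom.coe_fst, RingHom.coe_snd] at e1 e2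
    rw [e1, e2]
    exact (congrFun (congrFun (DFunLike.congr_fun X.isDef.reduces σ) i) j).trans
      (congrFun (congrFun (DFunLike.congr_fun hN.reduces σ) i) j).symm
  let pA : F →ₐ[𝒪] X.carrier := (AlgHom.fst 𝒪 X.carrier B).comp F.val
  let pB : F →ₐ[𝒪] B := (AlgHom.snd 𝒪 X.carrier B).comp F.val
  have hpA : mapRep (pA : F →+* X.carrier) NF = X.rep := by
    rw [← hP1, ← hNF, mapRep_mapRep]; rfl
  have hpB : mapRep (pB : F →+* B) NF = N := by
    rw [← hP2, ← hNF, mapRep_mapRep]; rfl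
  have htest : IsArtinianTestAlgebra 𝒪 k :=
    isArtinianTestAlgebra_of_toField (AlgHom.id 𝒪 k) fun c hc => ⟨1, by simpa using hc⟩
  have := hF.isArtinian
  have hlA : IsLocalHom (pA : F →+* X.carrier) := isLocalHom_of_isArtinianRing _
  have hlB : IsLocalHom (pB : F →+* B) := isLocalHom_of_isArtinianRing _
  have hdefF : IsDef D 𝒟 hF.isLocalHom hF.residue_surjective NF :=
    isDef_of_fibreProduct h𝒟 X.test hB htest hF πA πB pA pB (AlgHom.ext fun c => c.2)
      (fun a b h => Subtype.ext h) (fun a b h => ⟨⟨(a, b), h⟩, rfl, rfl⟩)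
      (hpA.symm ▸ X.isDef) (hpB.symm ▸ hN)
  have hjoint : ∀ a b : F, pA a = pA b → pB a = pB b → a = b := fun a b h1 h2 =>
    Subtype.ext (Prod.ext h1 h2)
  have hpowF : maximalIdeal F ^ n = ⊥ := by
    refine eq_bot_iff.mpr fun c hc => Ideal.mem_bot.mpr (hjoint _ _ ?_ ?_)
    · have h := mem_pow_of_algHom (pA : F →+* X.carrier) hlA hc
      rw [X.pow, Ideal.mem_bot] at h
      exact h.trans (map_zero pA).symm
    · have h := mem_pow_of_algHom (pB : F →+* B) hlB hc
      rw [hpow, Ideal.mem_bot] at h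
      exact h.trans (map_zero pB).symm
  obtain ⟨Y, ι, hι⟩ := exists_generated h𝒟 hF hdefF hpowF
  refine ⟨Y, pA.comp ι, pB.comp ι, ?_, ?_⟩
  · rw [← hpA, ← hι, mapRep_mapRep]; rfl
  · rw [← hpB, ← hι, mapRep_mapRep]; rfl

omit [IsNoetherianRing 𝒪] [Finite (TangentSet D 𝒟)] in
/-- The largest deformation algebra maps to every deformation killed by `m ^ n`. -/
theorem exists_algHom_of_max (h𝒟 : IsDeformationCondition 𝒪 𝒟) (X : DefAlg D 𝒟 n)
    (hX : ∀ Y : DefAlg D 𝒟 n, Nat.card Y.carrier ≤ Nat.card X.carrier) {B : Type} [CommRing B]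
    [IsLocalRing B] [Algebra 𝒪 B] (hB : IsArtinianTestAlgebra 𝒪 B) {N : MRep B}
    (hN : IsDef D 𝒟 hB.isLocalHom hB.residue_surjective N) (hpow : maximalIdeal B ^ n = ⊥) :
    ∃ φ : X.carrier →ₐ[𝒪] B, mapRep (φ : X.carrier →+* B) X.rep = N := by
  obtain ⟨Y, p, q, hp, hq⟩ := exists_join h𝒟 X hB hN hpow
  have := X.finite
  have := Y.finite
  have hbij : Function.Bijective p :=
    (range_eq_top_of_mapRep X.gen p hp).bijective_of_nat_card_le (hX Y)
  let e := AlgEquiv.ofBijective p hbij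
  refine ⟨q.comp e.symm.toAlgHom, ?_⟩
  rw [← hp, mapRep_mapRep, ← hq]
  congr 1
  refine RingHom.ext fun y => ?_
  show q (e.symm (e y)) = q y
  rw [AlgEquiv.symm_apply_apply]

end DefAlg

end Fermat.Agent.DefRing
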