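import Fermat.Agent.DefRing.NormalForm
import Fermat.Agent.DefRing.PowerSeriesLocal
import Fermat.Prelude.Def_GaloisRep_DeformationCondition

/-!
# Normal deformations over test algebras and the bound from the tangent space
-/

set_option autoImplicit false

open IsLocalRing GaloisRep

namespace Fermat.Agent.DefRing

variable {𝒪 : Type} [CommRing 𝒪] [IsLocalRing 𝒪]

local notation "k" => IsLocalRing.ResidueField 𝒪

variable (D : NormalData 𝒪)
  (𝒟 : ∀ ⦃A : Type⦄ [CommRing A] [IsLocalRing A] [Algebra 𝒪 A], GaloisRepAdic A → Prop)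

variable {A B : Type} [CommRing A] [IsLocalRing A] [Algebra 𝒪 A]
  [CommRing B] [IsLocalRing B] [Algebra 𝒪 B]

/-- A normal deformation of type `𝒟`. -/
structure IsDef (hl : IsLocalHom (algebraMap 𝒪 A))
    (hs : Function.Surjective (residue A ∘ algebraMap 𝒪 A)) (N : MRep A) : Prop where
  normal : D.IsNormal N
  reduces : D.Reduces hl hs N
  exists_cont : ∃ hc : IsCont N, 𝒟 (toAdic N hc)

variable {D 𝒟} {hlA : IsLocalHom (algebraMap 𝒪 A)}
  {hsA : Function.Surjective (residue A ∘ algebraMap 𝒪 A)}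
  {hlB : IsLocalHom (algebraMap 𝒪 B)}
  {hsB : Function.Surjective (residue B ∘ algebraMap 𝒪 B)}

theorem IsDef.cont {N : MRep A} (h : IsDef D 𝒟 hlA hsA N) : IsCont N := h.exists_cont.choose

theorem IsDef.type {N : MRep A} (h : IsDef D 𝒟 hlA hsA N) : 𝒟 (toAdic N h.cont) :=
  h.exists_cont.choose_spec

theorem IsDef.map (h𝒟 : IsDeformationCondition 𝒪 𝒟) (hA : IsArtinianTestAlgebra 𝒪 A)
    (hB : IsArtinianTestAlgebra 𝒪 B) (φ : A →ₐ[𝒪] B) {N : MRep A}
    (h : IsDef D 𝒟 hlA hsA N) : IsDef D 𝒟 hlB hsB (mapRep (φ : A →+* B) N) := by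
  have := hA.isArtinian
  have hφ : IsLocalHom (φ : A →+* B) := isLocalHom_of_isArtinianRing _
  exact ⟨h.normal.map φ, h.reduces.map φ hφ, h.cont.map _ hφ,
    h𝒟.of_isEquiv hB (baseChangeAlong_toAdic_isEquiv N h.cont _ hφ)
      (h𝒟.baseChangeAlong hA hB φ hφ h.type)⟩

omit [IsLocalRing 𝒪] [Algebra 𝒪 A] in
theorem isCont_of_finite_level [IsArtinianRing A] {N : MRep A}
    (h : ∃ L : IntermediateField ℚ (AlgebraicClosure ℚ), FiniteDimensional ℚ L ∧
      ∀ σ : GQ, (∀ x ∈ L, σ x = x) → N σ = 1) : IsCont N := by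
  intro n
  obtain ⟨L, hL, h1⟩ := h
  exact ⟨L, hL, fun σ hσ i j => by simp [h1 σ hσ]⟩

omit [IsLocalRing 𝒪] [Algebra 𝒪 A] in
theorem IsCont.finite_level [IsArtinianRing A] {N : MRep A} (h : IsCont N) :
    ∃ L : IntermediateField ℚ (AlgebraicClosure ℚ), FiniteDimensional ℚ L ∧
      ∀ σ : GQ, (∀ x ∈ L, σ x = x) → N σ = 1 := by
  obtain ⟨n, hn⟩ := isNilpotent_maximalIdeal_of_isArtinianRing (A := A)
  obtain ⟨L, hL, h1⟩ := h n
  refine ⟨L, hL, fun σ hσ => sub_eq_zero.mp (Matrix.ext fun i j => ?_)⟩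
  have := h1 σ hσ i j
  rwa [hn, Ideal.zero_eq_bot, Ideal.mem_bot] at this

theorem IsDef.descend (h𝒟 : IsDeformationCondition 𝒪 𝒟) (hA : IsArtinianTestAlgebra 𝒪 A)
    (hB : IsArtinianTestAlgebra 𝒪 B) (φ : A →ₐ[𝒪] B) (hinj : Function.Injective φ) {N : MRep A}
    (h : IsDef D 𝒟 hlB hsB (mapRep (φ : A →+* B) N)) : IsDef D 𝒟 hlA hsA N := by
  have := hA.isArtinian
  have := hB.isArtinian
  have hφ : IsLocalHom (φ : A →+* B) := isLocalHom_of_isArtinianRing _
  have hcont : IsCont N := by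
    obtain ⟨L, hL, h1⟩ := h.cont.finite_level
    refine isCont_of_finite_level ⟨L, hL, fun σ hσ => Matrix.ext fun i j => hinj ?_⟩
    have := congrFun (congrFun (h1 σ hσ) i) j
    simp only [mapRep_apply, Matrix.map_apply, RingHom.coe_coe] at this
    rw [this]
    by_cases hij : i = j
    · rw [hij, Matrix.one_apply_eq, Matrix.one_apply_eq, map_one]
    · rw [Matrix.one_apply_ne hij, Matrix.one_apply_ne hij, map_zero]
  refine ⟨?_, ?_, hcont, ?_⟩
  · obtain ⟨h1, h2, h3⟩ := h.normal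
    simp only [← map_evRep φ N, Matrix.map_apply] at h1 h2 h3
    exact ⟨hinj (h1.trans (map_zero φ).symm), hinj (h2.trans (map_zero φ).symm),
      hinj (h3.trans (map_one φ).symm)⟩
  · have := h.reduces
    rw [NormalData.Reduces, mapRep_mapRep] at this
    rw [NormalData.Reduces, ← this, ← toResidue_comp hlA hsA hlB hsB φ hφ]
    rfl
  · exact h𝒟.of_baseChangeAlong_injective hA hB φ hφ hinj
      (h𝒟.of_isEquiv hB (isEquiv_symm (baseChangeAlong_toAdic_isEquiv N hcont _ hφ)) h.type)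

/-- The set of matrix entries. -/
def entries {R : Type} [CommRing R] (N : MRep R) : Set R :=
  Set.range fun p : GQ × Fin 2 × Fin 2 => N p.1 p.2.1 p.2.2

omit [IsLocalRing 𝒪] [IsLocalRing A] [IsLocalRing B] in
theorem algHom_eq_of_mapRep_eq {N : MRep A} (hgen : Algebra.adjoin 𝒪 (entries N) = ⊤)
    {φ ψ : A →ₐ[𝒪] B} (h : mapRep (φ : A →+* B) N = mapRep (ψ : A →+* B) N) : φ = ψ := by
  refine AlgHom.ext_of_adjoin_eq_top hgen ?_
  rintro _ ⟨⟨σ, i, j⟩, rfl⟩
  exact congrFun (congrFun (DFunLike.congr_fun h σ) i) j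

/-- The algebra structure on dual numbers used by `TangentFinite`. -/
@[reducible]
noncomputable def dualAlgebra : Algebra 𝒪 (DualNumber k) :=
  ((algebraMap k (DualNumber k)).comp (algebraMap 𝒪 k)).toAlgebra

attribute [local instance 10000] dualAlgebra

theorem dual_algebraMap (o : 𝒪) :
    algebraMap 𝒪 (DualNumber k) o = TrivSqZeroExt.inl (residue 𝒪 o) := rfl

theorem isArtinianTestAlgebra_dual [Finite k] : IsArtinianTestAlgebra 𝒪 (DualNumber k) := by
  have : Finite (DualNumber k) := inferInstanceAs (Finite (k × k))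
  let π : DualNumber k →ₐ[𝒪] k :=
    { (TrivSqZeroExt.fstHom k k k).toRingHom with commutes' := fun o => rfl }
  refine isArtinianTestAlgebra_of_toField π fun c hc => ⟨2, ?_⟩
  have hc' : c.fst = 0 := hc
  ext <;> simp [pow_two, hc']

variable (D 𝒟) in
/-- Normal deformations to the dual numbers. -/
abbrev TangentSet [Finite k] : Type :=
  {N : MRep (DualNumber k) // IsDef D 𝒟 (isArtinianTestAlgebra_dual (𝒪 := 𝒪)).isLocalHom
    (isArtinianTestAlgebra_dual (𝒪 := 𝒪)).residue_surjective N}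

theorem finite_tangentSet [Finite k] (ρbar : ResidualGaloisRep k)
    (b : Module.Basis (Fin 2) k ρbar.V) (hD : ∀ σ, D.rbar σ = LinearMap.toMatrix b b (ρbar.ρ σ))
    (hfin : TangentFinite 𝒪 ρbar 𝒟) : Finite (TangentSet D 𝒟) := by
  set hT := isArtinianTestAlgebra_dual (𝒪 := 𝒪) with hTdef
  have := hT.isLocalHom
  let ψ : k →+* ResidueField (DualNumber k) :=
    (residue (DualNumber k)).comp (algebraMap k (DualNumber k))
  have hres : ∀ τ : TangentSet D 𝒟,
      (toAdic τ.1 τ.2.cont).residual.IsEquiv (ρbar.baseChangeAlong ψ) := by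
    intro τ
    rw [residual_isEquiv_baseChangeAlong_iff _ (toAdicBasis _ _) ρbar b]
    refine ⟨1, fun σ => ?_⟩
    rw [Units.val_one, one_mul, mul_one, matrixRep_toAdic, ← hD, ← τ.2.reduces, mapRep_apply,
      Matrix.map_map]
    congr 1
    funext a
    rw [Function.comp_apply, ← residueField_map_toResidue hT.residue_surjective a]
    obtain ⟨o, ho⟩ := residue_surjective (toResidue hT.isLocalHom hT.residue_surjective a)
    show _ = ψ (toResidue hT.isLocalHom hT.residue_surjective a)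
    rw [← ho]
    exact (ResidueField.map_residue _ o).trans rfl
  unfold TangentFinite at hfin
  refine @Finite.of_injective _ _ hfin
    (fun τ => Quotient.mk'' ⟨toAdic τ.1 τ.2.cont, τ.2.type, hres τ⟩) ?_
  intro τ τ' h
  obtain ⟨g, hg⟩ := (toAdic_isEquiv_toAdic_iff τ.2.cont τ'.2.cont).mp (Quotient.eq''.mp h)
  exact Subtype.ext (NormalData.eq_of_conj τ.2.normal τ'.2.normal τ.2.reduces τ'.2.reduces g hg)

/-- Tangent vectors separate the cotangent space. -/
theorem exists_algHom_dual_snd_ne_zero (hl : IsLocalHom (algebraMap 𝒪 A))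
    (hs : Function.Surjective (residue A ∘ algebraMap 𝒪 A)) {y : A} (hy : y ∈ maximalIdeal A)
    (hyK : y ∉ maximalIdeal A ^ 2 ⊔ (maximalIdeal 𝒪).map (algebraMap 𝒪 A)) :
    ∃ φ : A →ₐ[𝒪] DualNumber k, (φ y).snd ≠ 0 := by
  set K := maximalIdeal A ^ 2 ⊔ (maximalIdeal 𝒪).map (algebraMap 𝒪 A) with hK
  have hKm : K ≤ maximalIdeal A := sup_le (Ideal.pow_le_self two_ne_zero)
    (Ideal.map_le_iff_le_comap.mpr fun o ho => fun hu => ho (hl.map_nonunit o hu))
  let ι : k →+* A ⧸ K := Ideal.Quotient.lift (maximalIdeal 𝒪)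
    ((Ideal.Quotient.mk K).comp (algebraMap 𝒪 A)) fun o ho => by
      rw [RingHom.comp_apply, Ideal.Quotient.eq_zero_iff_mem]
      exact Ideal.mem_sup_right (Ideal.mem_map_of_mem _ ho)
  let : Algebra k (A ⧸ K) := ι.toAlgebra
  have hι : ∀ o : 𝒪, algebraMap k (A ⧸ K) (residue 𝒪 o) =
      Ideal.Quotient.mk K (algebraMap 𝒪 A o) := fun o => rfl
  have hnot : Ideal.Quotient.mk K y ∉ Submodule.span k {(1 : A ⧸ K)} := by
    rw [Submodule.mem_span_singleton]
    rintro ⟨c, hc⟩
    obtain ⟨o, rfl⟩ := residue_surjective c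
    rw [Algebra.smul_def, mul_one, hι, Ideal.Quotient.mk_eq_mk_iff_sub_mem] at hc
    have ho : algebraMap 𝒪 A o ∈ maximalIdeal A := by simpa using add_mem (hKm hc) hy
    have ho' : o ∈ maximalIdeal 𝒪 := fun hu => ho (hu.map _)
    exact hyK (by
      simpa using sub_mem (Ideal.mem_sup_right (Ideal.mem_map_of_mem (algebraMap 𝒪 A) ho') :
        algebraMap 𝒪 A o ∈ K) hc)
  obtain ⟨f, hfy, hf⟩ := Submodule.exists_le_ker_of_notMem hnot
  have hf1 : f 1 = 0 := hf (Submodule.mem_span_singleton_self _)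
  let lam : A → k := fun a => f (Ideal.Quotient.mk K a)
  have hlam_add : ∀ a a', lam (a + a') = lam a + lam a' := fun a a' => by simp [lam]
  have hlam_smul : ∀ o a, lam (algebraMap 𝒪 A o * a) = residue 𝒪 o * lam a := fun o a => by
    show f _ = _
    rw [map_mul, ← hι, ← Algebra.smul_def, map_smul, smul_eq_mul]
  have hlam_alg : ∀ o, lam (algebraMap 𝒪 A o) = 0 := fun o => by
    have := hlam_smul o 1
    simpa [lam, hf1] using this
  have hlam_sq : ∀ z ∈ maximalIdeal A ^ 2, lam z = 0 := fun z hz => by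
    show f _ = _
    rw [Ideal.Quotient.eq_zero_iff_mem.mpr (Ideal.mem_sup_left hz), map_zero]
  set π := toResidue hl hs with hπ
  have hπo : ∀ o, π (algebraMap 𝒪 A o) = residue 𝒪 o := fun o => AlgHom.commutes π o
  have hmul : ∀ a a', lam (a * a') = π a * lam a' + π a' * lam a := by
    intro a a'
    obtain ⟨o, ho⟩ := exists_algebraMap_add_mem hs a
    obtain ⟨o', ho'⟩ := exists_algebraMap_add_mem hs a'
    have h1 : π a = residue 𝒪 o := by
      rw [← hπo, ← sub_eq_zero, ← map_sub, hπ, toResidue_eq_zero_iff]; exact ho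
    have h2 : π a' = residue 𝒪 o' := by
      rw [← hπo, ← sub_eq_zero, ← map_sub, hπ, toResidue_eq_zero_iff]; exact ho'
    have h3 := hlam_sq _ (pow_two (maximalIdeal A) ▸ Ideal.mul_mem_mul ho ho')
    have : a * a' = (algebraMap 𝒪 A o * a' + algebraMap 𝒪 A o' * a) +
        (algebraMap 𝒪 A (-(o * o')) + (a - algebraMap 𝒪 A o) * (a' - algebraMap 𝒪 A o')) := by
      rw [map_neg, map_mul]; ring
    rw [this, hlam_add, hlam_add, hlam_add, hlam_smul, hlam_smul, hlam_alg, h3, h1, h2, add_zero,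
      add_zero]
  refine ⟨{
    toFun := fun a => TrivSqZeroExt.inl (π a) + TrivSqZeroExt.inr (lam a)
    map_one' := by
      ext <;> simp [lam, hf1]
    map_zero' := by
      ext <;> simp [lam]
    map_add' := fun a a' => by
      ext <;> simp [hlam_add]
    map_mul' := fun a a' => by
      ext
      · simp
      · simp [hmul, mul_comm]
    commutes' := fun o => by
      rw [dual_algebraMap]
      ext <;> simp [hlam_alg, hπo] }, ?_⟩
  simpa [lam] using hfy

/-- Boundedly many elements generate the cotangent space of every deformation algebra. -/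
theorem exists_generators [Finite k] (h𝒟 : IsDeformationCondition 𝒪 𝒟)
    (hA : IsArtinianTestAlgebra 𝒪 A) {N : MRep A} (hN : IsDef D 𝒟 hlA hsA N)
    (hgen : Algebra.adjoin 𝒪 (entries N) = ⊤) :
    ∃ x : (TangentSet D 𝒟 → k) → A, (∀ t, x t ∈ maximalIdeal A) ∧
      ∀ a ∈ maximalIdeal A, ∃ t,
        a - x t ∈ maximalIdeal A ^ 2 ⊔ (maximalIdeal 𝒪).map (algebraMap 𝒪 A) := by
  classical
  let Φ : A → (TangentSet D 𝒟 → k) := fun a τ =>
    if h : ∃ φ : A →ₐ[𝒪] DualNumber k, mapRep (φ : A →+* DualNumber k) N = τ.1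
      then (h.choose a).snd else 0
  let x : (TangentSet D 𝒟 → k) → A := fun t =>
    if h : ∃ a ∈ maximalIdeal A, Φ a = t then h.choose else 0
  have hx : ∀ t, x t ∈ maximalIdeal A := fun t => by
    by_cases h : ∃ a ∈ maximalIdeal A, Φ a = t
    · simp only [x, dif_pos h]; exact h.choose_spec.1
    · simp only [x, dif_neg h]; exact zero_mem _
  refine ⟨x, hx, fun a ha => ⟨Φ a, ?_⟩⟩
  by_contra hK
  obtain ⟨φ, hφ⟩ := exists_algHom_dual_snd_ne_zero hA.isLocalHom hA.residue_surjective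
    (sub_mem ha (hx (Φ a))) hK
  let τ : TangentSet D 𝒟 :=
    ⟨mapRep (φ : A →+* DualNumber k) N, hN.map h𝒟 hA isArtinianTestAlgebra_dual φ⟩
  have hτ : ∀ c, Φ c τ = (φ c).snd := by
    intro c
    have h : ∃ ψ : A →ₐ[𝒪] DualNumber k, mapRep (ψ : A →+* DualNumber k) N = τ.1 := ⟨φ, rfl⟩
    simp only [Φ, dif_pos h]
    rw [algHom_eq_of_mapRep_eq hgen h.choose_spec]
  have h : ∃ c ∈ maximalIdeal A, Φ c = Φ a := ⟨a, ha, rfl⟩
  have := congrFun h.choose_spec.2 τ
  rw [hτ, hτ] at this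
  apply hφ
  rw [map_sub, TrivSqZeroExt.snd_sub]
  simp only [x, dif_pos h, this, sub_self]

end Fermat.Agent.DefRing
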