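import Fermat.Agent.DefRing.Levels

/-!
# The tower of universal deformations

`Tower` packages compatible universal level deformations `A n` (killed by `m ^ (n+2)`) together
with compatible surjections from one power series ring.
-/

set_option autoImplicit false

open IsLocalRing GaloisRep

namespace Fermat.Agent.DefRing

variable {𝒪 : Type} [CommRing 𝒪] [IsLocalRing 𝒪] (D : NormalData 𝒪)
  (𝒟 : ∀ ⦃A : Type⦄ [CommRing A] [IsLocalRing A] [Algebra 𝒪 A], GaloisRepAdic A → Prop)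

/-- Compatible universal levels covered by a power series ring in `σ` variables. -/
structure Tower (σ : Type) : Type 1 where
  lev : ∀ n, DefAlg D 𝒟 (n + 2)
  max : ∀ n, ∀ Y : DefAlg D 𝒟 (n + 2), Nat.card Y.carrier ≤ Nat.card (lev n).carrier
  trans : ∀ n, (lev (n + 1)).carrier →ₐ[𝒪] (lev n).carrier
  trans_rep : ∀ n,
    mapRep (trans n : (lev (n + 1)).carrier →+* (lev n).carrier) (lev (n + 1)).rep = (lev n).rep
  ψ : ∀ n, MvPowerSeries σ 𝒪 →ₐ[𝒪] (lev n).carrier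
  ψ_surjective : ∀ n, Function.Surjective (ψ n)
  trans_ψ : ∀ n, (trans n).comp (ψ (n + 1)) = ψ n

variable {D 𝒟}

variable [Finite (ResidueField 𝒪)] [IsNoetherianRing 𝒪]

omit [IsNoetherianRing 𝒪] in
/-- The kernel of the transition of universal levels is the expected power of the maximal ideal. -/
theorem mem_pow_of_trans_eq_zero (h𝒟 : IsDeformationCondition 𝒪 𝒟) {n : ℕ}
    (X' : DefAlg D 𝒟 (n + 3)) (X : DefAlg D 𝒟 (n + 2))
    (hX : ∀ Y : DefAlg D 𝒟 (n + 2), Nat.card Y.carrier ≤ Nat.card X.carrier)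
    (τ : X'.carrier →ₐ[𝒪] X.carrier)
    (hτ : mapRep (τ : X'.carrier →+* X.carrier) X'.rep = X.rep) {a : X'.carrier} (ha : τ a = 0) :
    a ∈ maximalIdeal X'.carrier ^ (n + 2) := by
  set I := maximalIdeal X'.carrier ^ (n + 2) with hI
  have := X'.finite
  have hI1 : I ≤ maximalIdeal X'.carrier := Ideal.pow_le_self (by omega)
  have : Nontrivial (X'.carrier ⧸ I) := Ideal.Quotient.nontrivial_iff.mpr fun h =>
    (maximalIdeal.isMaximal X'.carrier).ne_top (top_le_iff.mp (h ▸ hI1))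
  have : IsLocalRing (X'.carrier ⧸ I) :=
    IsLocalRing.of_surjective' (Ideal.Quotient.mk I) Ideal.Quotient.mk_surjective
  have : Finite (X'.carrier ⧸ I) := Finite.of_surjective _ Ideal.Quotient.mk_surjective
  let π : X'.carrier ⧸ I →ₐ[𝒪] ResidueField 𝒪 :=
    Ideal.Quotient.liftₐ I (toResidue X'.test.isLocalHom X'.test.residue_surjective)
      fun x hx => (toResidue_eq_zero_iff _ _).mpr (hI1 hx)
  have hB : IsArtinianTestAlgebra 𝒪 (X'.carrier ⧸ I) := by
    refine isArtinianTestAlgebra_of_toField π fun c hc => ⟨n + 2, ?_⟩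
    obtain ⟨x, rfl⟩ := Ideal.Quotient.mk_surjective c
    rw [← map_pow, Ideal.Quotient.eq_zero_iff_mem]
    exact Ideal.pow_mem_pow
      ((toResidue_eq_zero_iff X'.test.isLocalHom X'.test.residue_surjective).mp hc) _
  have hN : IsDef D 𝒟 hB.isLocalHom hB.residue_surjective
      (mapRep (Ideal.Quotient.mkₐ 𝒪 I : X'.carrier →+* X'.carrier ⧸ I) X'.rep) :=
    X'.isDef.map h𝒟 X'.test hB _
  have hpow : maximalIdeal (X'.carrier ⧸ I) ^ (n + 2) = ⊥ := by
    rw [← map_maximalIdeal_of_surjective _ (Ideal.Quotient.mk_surjective (I := I))]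
    exact Ideal.map_quotient_self I
  obtain ⟨g, hg⟩ := DefAlg.exists_algHom_of_max h𝒟 X hX hB hN hpow
  have : g.comp τ = Ideal.Quotient.mkₐ 𝒪 I := by
    refine algHom_eq_of_mapRep_eq X'.gen ?_
    rw [← hg, ← hτ, mapRep_mapRep]
    rfl
  have h0 := DFunLike.congr_fun this a
  rw [AlgHom.comp_apply, ha, map_zero] at h0
  exact Ideal.Quotient.eq_zero_iff_mem.mp h0.symm

omit [IsNoetherianRing 𝒪] in
/-- Lift a surjection from power series one level up. -/
theorem exists_lift_psi (h𝒟 : IsDeformationCondition 𝒪 𝒟) {σ : Type} [Finite σ] {n : ℕ}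
    (X' : DefAlg D 𝒟 (n + 3)) (X : DefAlg D 𝒟 (n + 2))
    (hX : ∀ Y : DefAlg D 𝒟 (n + 2), Nat.card Y.carrier ≤ Nat.card X.carrier)
    (τ : X'.carrier →ₐ[𝒪] X.carrier)
    (hτ : mapRep (τ : X'.carrier →+* X.carrier) X'.rep = X.rep)
    (ψ : MvPowerSeries σ 𝒪 →ₐ[𝒪] X.carrier) (hψ : Function.Surjective ψ) :
    ∃ ψ' : MvPowerSeries σ 𝒪 →ₐ[𝒪] X'.carrier, Function.Surjective ψ' ∧ τ.comp ψ' = ψ := by
  have := X'.test.isArtinian
  have := X.test.isArtinian
  have hτs := range_eq_top_of_mapRep X.gen τ hτ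
  have hτl : IsLocalHom (τ : X'.carrier →+* X.carrier) := isLocalHom_of_isArtinianRing _
  have hψl : IsLocalHom (ψ : MvPowerSeries σ 𝒪 →+* X.carrier) := isLocalHom_of_surjective' _ hψ
  have hψm : ∀ i, ψ (MvPowerSeries.X i) ∈ maximalIdeal X.carrier := fun i => by
    simpa using mem_pow_of_algHom (ψ : MvPowerSeries σ 𝒪 →+* X.carrier) hψl
      (n := 1) (by simpa using X_mem_maximalIdeal i)
  choose y hy using fun i => hτs (ψ (MvPowerSeries.X i))
  have hym : ∀ i, y i ∈ maximalIdeal X'.carrier := fun i => (mem_maximalIdeal _).mpr fun hu =>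
    (mem_maximalIdeal _).mp (hψm i) (hy i ▸ hu.map τ)
  have hnil := isNilpotent_maximalIdeal_of_isArtinianRing (A := X'.carrier)
  obtain ⟨ψ', hψ'⟩ := exists_algHom_X_eq (O := 𝒪) hnil y hym
  have hcomp : τ.comp ψ' = ψ := by
    refine algHom_ext_of_X (isNilpotent_maximalIdeal_of_isArtinianRing (A := X.carrier))
      (fun i => ?_) (fun i => ?_)
    · rw [AlgHom.comp_apply, hψ', hy]; exact hψm i
    · rw [AlgHom.comp_apply, hψ', hy]
  refine ⟨ψ', ?_, hcomp⟩
  rw [← AlgHom.range_eq_top]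
  refine subalgebra_eq_top hnil X'.test.residue_surjective _ fun a _ => ?_
  obtain ⟨p, hp⟩ := hψ (τ a)
  refine ⟨ψ' p, ⟨p, rfl⟩, Ideal.pow_le_pow_right (show 2 ≤ n + 2 by omega)
    (mem_pow_of_trans_eq_zero h𝒟 X' X hX τ hτ ?_)⟩
  rw [map_sub, ← AlgHom.comp_apply, hcomp, hp, sub_self]

theorem exists_tower (h𝒟 : IsDeformationCondition 𝒪 𝒟) [Finite (TangentSet D 𝒟)]
    (ρbar : ResidualGaloisRep (ResidueField 𝒪))
    (b : Module.Basis (Fin 2) (ResidueField 𝒪) ρbar.V)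
    (hD : ∀ σ, D.rbar σ = LinearMap.toMatrix b b (ρbar.ρ σ))
    (hbar : 𝒟 (GaloisRepAdic.ofResidualGaloisRep ρbar)) :
    Nonempty (Tower D 𝒟 (TangentSet D 𝒟 → ResidueField 𝒪)) := by
  choose lev hmax using fun n => DefAlg.exists_max (n := n + 2) h𝒟
    (DefAlg.nonempty_of_pos h𝒟 ρbar b hD hbar (by omega))
  have hpow : ∀ n, maximalIdeal (lev n).carrier ^ (n + 3) = ⊥ := fun n => by
    rw [pow_succ, (lev n).pow, Ideal.bot_mul]
  choose trans htrans using fun n =>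
    DefAlg.exists_algHom_of_max h𝒟 (lev (n + 1)) (hmax (n + 1)) (lev n).test (lev n).isDef (hpow n)
  obtain ⟨ψ₀, hψ₀⟩ := (lev 0).exists_surjective h𝒟
  choose next hnext hnext' using fun n ψ hψ =>
    exists_lift_psi (σ := TangentSet D 𝒟 → ResidueField 𝒪) h𝒟 (lev (n + 1)) (lev n) (hmax n)
      (trans n) (htrans n) ψ hψ
  let ψ : ∀ n, {f : MvPowerSeries (TangentSet D 𝒟 → ResidueField 𝒪) 𝒪 →ₐ[𝒪] (lev n).carrier //
      Function.Surjective f} :=
    fun n => Nat.rec ⟨ψ₀, hψ₀⟩ (fun m f => ⟨next m f.1 f.2, hnext m f.1 f.2⟩) n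
  exact ⟨⟨lev, hmax, trans, htrans, fun n => (ψ n).1, fun n => (ψ n).2,
    fun n => hnext' n (ψ n).1 (ψ n).2⟩⟩

namespace Tower

variable {σ : Type} (T : Tower D 𝒟 σ)

omit [Finite (ResidueField 𝒪)] [IsNoetherianRing 𝒪] in
theorem ψ_eq_zero_of_mem_pow {n m : ℕ} (hm : n + 2 ≤ m) {f : MvPowerSeries σ 𝒪}
    (hf : f ∈ maximalIdeal (MvPowerSeries σ 𝒪) ^ m) : T.ψ n f = 0 := by
  have := mem_pow_of_algHom (T.ψ n : MvPowerSeries σ 𝒪 →+* (T.lev n).carrier)
    (isLocalHom_of_surjective' (T.ψ n : MvPowerSeries σ 𝒪 →+* (T.lev n).carrier) (T.ψ_surjective n)) (Ideal.pow_le_pow_right hm hf)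
  rwa [(T.lev n).pow, Ideal.mem_bot] at this

/-- Compatible elements of the levels lift to the power series ring. -/
theorem exists_lift_from (h𝒟 : IsDeformationCondition 𝒪 𝒟) [Finite σ]
    [IsAdicComplete (maximalIdeal 𝒪) 𝒪] (a : ∀ n, (T.lev n).carrier)
    (ha : ∀ n, T.trans n (a (n + 1)) = a n) (n : ℕ) (q : MvPowerSeries σ 𝒪) (hq : T.ψ n q = a n) :
    ∃ y, (∀ m, T.ψ m y = a m) ∧ y - q ∈ maximalIdeal (MvPowerSeries σ 𝒪) ^ (n + 2) := by
  have : IsAdicComplete (maximalIdeal (MvPowerSeries σ 𝒪)) (MvPowerSeries σ 𝒪) :=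
    isAdicComplete_mvPowerSeries
  have hstep : ∀ m (p : MvPowerSeries σ 𝒪), T.ψ m p = a m → ∃ p', T.ψ (m + 1) p' = a (m + 1) ∧
      p' - p ∈ maximalIdeal (MvPowerSeries σ 𝒪) ^ (m + 2) := by
    intro m p hp
    have h0 : T.trans m (T.ψ (m + 1) p - a (m + 1)) = 0 := by
      rw [map_sub, ← AlgHom.comp_apply, T.trans_ψ, hp, ha, sub_self]
    have h1 := mem_pow_of_trans_eq_zero h𝒟 _ _ (T.max m) (T.trans m) (T.trans_rep m) h0
    rw [← map_maximalIdeal_of_surjective (T.ψ (m + 1) : MvPowerSeries σ 𝒪 →+* (T.lev (m + 1)).carrier)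
      (T.ψ_surjective _)] at h1
    obtain ⟨e, he, he'⟩ := (Ideal.mem_map_iff_of_surjective
      (T.ψ (m + 1) : MvPowerSeries σ 𝒪 →+* (T.lev (m + 1)).carrier) (T.ψ_surjective _)).mp h1
    replace he' : T.ψ (m + 1) e = T.ψ (m + 1) p - a (m + 1) := he'
    refine ⟨p - e, ?_, by simpa using neg_mem he⟩
    rw [map_sub]
    linear_combination (-1 : (T.lev (m + 1)).carrier) * he'
  choose next hnext hdiff using hstep
  let seq : ∀ i, {p : MvPowerSeries σ 𝒪 // T.ψ (n + i) p = a (n + i)} :=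
    fun i => Nat.rec ⟨q, hq⟩ (fun j p => ⟨next (n + j) p.1 p.2, hnext (n + j) p.1 p.2⟩) i
  have hsucc : ∀ i, (seq (i + 1)).1 - (seq i).1 ∈
      maximalIdeal (MvPowerSeries σ 𝒪) ^ (n + i + 2) := fun i =>
    hdiff (n + i) (seq i).1 (seq i).2
  have hmono : ∀ i j, i ≤ j → (seq j).1 - (seq i).1 ∈
      maximalIdeal (MvPowerSeries σ 𝒪) ^ (n + i + 2) := by
    intro i j hij
    induction j, hij using Nat.le_induction with
    | base => simp
    | succ j hij ih =>
      have := add_mem (Ideal.pow_le_pow_right (show n + i + 2 ≤ n + j + 2 by omega) (hsucc j)) ih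
      simpa using this
  obtain ⟨y, hy⟩ := IsPrecomplete.prec
    (inferInstance : IsPrecomplete (maximalIdeal (MvPowerSeries σ 𝒪)) (MvPowerSeries σ 𝒪))
    (f := fun i => (seq i).1) fun {i j} hij => by
      rw [SModEq.sub_mem, smul_eq_mul, Ideal.mul_top]
      simpa using neg_mem (Ideal.pow_le_pow_right (show i ≤ n + i + 2 by omega) (hmono i j hij))
  have hclose : ∀ i, y - (seq i).1 ∈ maximalIdeal (MvPowerSeries σ 𝒪) ^ (n + i + 2) := by
    intro i
    have h1 := hy (n + i + 2)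
    rw [SModEq.sub_mem, smul_eq_mul, Ideal.mul_top] at h1
    have := sub_mem (hmono i (n + i + 2) (by omega)) h1
    simpa using this
  have hval : ∀ m, n ≤ m → T.ψ m y = a m := by
    intro m hm
    obtain ⟨i, rfl⟩ := Nat.exists_eq_add_of_le hm
    have := T.ψ_eq_zero_of_mem_pow (le_refl (n + i + 2)) (hclose i)
    rwa [map_sub, (seq i).2, sub_eq_zero] at this
  refine ⟨y, fun m => ?_, hclose 0⟩
  obtain ⟨d, hd⟩ : ∃ d, n ≤ m + d := ⟨n, by omega⟩
  induction d generalizing m with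
  | zero => exact hval m hd
  | succ d ih =>
    have := ih (m + 1) (by omega)
    rw [← ha m, ← this, ← AlgHom.comp_apply, T.trans_ψ]

end Tower

end Fermat.Agent.DefRing
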