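import Fermat.Agent.DefRing.Tower
import Fermat.Prelude.Def_GaloisRep_DeformationRingData
import Fermat.Prelude.Thm_IsLocalRing_isAdicComplete_of_module_finite
import Fermat.Prelude.Thm_IsAdicComplete_of_module_finite

/-!
# The universal deformation ring
-/

set_option autoImplicit false

open IsLocalRing GaloisRep

namespace Fermat.Agent.DefRing

namespace Tower

variable {𝒪 : Type} [CommRing 𝒪] [IsLocalRing 𝒪] {D : NormalData 𝒪}
  {𝒟 : ∀ ⦃A : Type⦄ [CommRing A] [IsLocalRing A] [Algebra 𝒪 A], GaloisRepAdic A → Prop}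
  {σ : Type} (T : Tower D 𝒟 σ)

/-- The relations. -/
noncomputable def rel : Ideal (MvPowerSeries σ 𝒪) :=
  ⨅ n, RingHom.ker (T.ψ n)

/-- The universal ring. -/
abbrev Ring : Type := MvPowerSeries σ 𝒪 ⧸ T.rel

theorem rel_le_maximalIdeal : T.rel ≤ maximalIdeal (MvPowerSeries σ 𝒪) :=
  (iInf_le _ 0).trans (le_maximalIdeal (RingHom.ker_ne_top _))

instance instNontrivial : Nontrivial T.Ring :=
  Ideal.Quotient.nontrivial_iff.mpr fun h =>
    (maximalIdeal.isMaximal (MvPowerSeries σ 𝒪)).ne_top (top_le_iff.mp (h ▸ T.rel_le_maximalIdeal))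

instance instIsLocalRing : IsLocalRing T.Ring :=
  IsLocalRing.of_surjective' (Ideal.Quotient.mk T.rel) Ideal.Quotient.mk_surjective

theorem isAdicComplete [Finite σ] [IsNoetherianRing 𝒪] [IsAdicComplete (maximalIdeal 𝒪) 𝒪] :
    IsAdicComplete (maximalIdeal T.Ring) T.Ring := by
  have : IsAdicComplete (maximalIdeal (MvPowerSeries σ 𝒪)) (MvPowerSeries σ 𝒪) :=
    isAdicComplete_mvPowerSeries
  have : IsLocalHom (algebraMap (MvPowerSeries σ 𝒪) T.Ring) :=
    isLocalHom_of_surjective' _ Ideal.Quotient.mk_surjective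
  exact IsLocalRing.isAdicComplete_of_module_finite (𝒪 := MvPowerSeries σ 𝒪) (T := T.Ring)

/-- The projection to level `n`. -/
noncomputable def proj (n : ℕ) : T.Ring →ₐ[𝒪] (T.lev n).carrier :=
  Ideal.Quotient.liftₐ T.rel (T.ψ n) fun _ hf => (Ideal.mem_iInf.mp hf n : _)

theorem proj_surjective (n : ℕ) : Function.Surjective (T.proj n) := fun y =>
  ⟨Ideal.Quotient.mk T.rel (T.ψ_surjective n y).choose, (T.ψ_surjective n y).choose_spec⟩

theorem isLocalHom_proj (n : ℕ) : IsLocalHom (T.proj n : T.Ring →+* (T.lev n).carrier) :=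
  isLocalHom_of_surjective' _ (T.proj_surjective n)

theorem proj_ext {r r' : T.Ring} (h : ∀ n, T.proj n r = T.proj n r') : r = r' := by
  obtain ⟨f, rfl⟩ := Ideal.Quotient.mk_surjective r
  obtain ⟨f', rfl⟩ := Ideal.Quotient.mk_surjective r'
  rw [Ideal.Quotient.mk_eq_mk_iff_sub_mem]
  refine Ideal.mem_iInf.mpr fun n => ?_
  rw [RingHom.mem_ker, map_sub, sub_eq_zero]
  exact h n

theorem trans_proj (n : ℕ) : (T.trans n).comp (T.proj (n + 1)) = T.proj n := by
  refine AlgHom.ext fun r => ?_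
  obtain ⟨f, rfl⟩ := Ideal.Quotient.mk_surjective r
  exact DFunLike.congr_fun (T.trans_ψ n) f

theorem residue_surjective :
    Function.Surjective (residue T.Ring ∘ algebraMap 𝒪 T.Ring) := by
  intro y
  obtain ⟨r, rfl⟩ := IsLocalRing.residue_surjective y
  obtain ⟨f, rfl⟩ := Ideal.Quotient.mk_surjective r
  refine ⟨MvPowerSeries.constantCoeff f, (Ideal.Quotient.mk_eq_mk_iff_sub_mem _ _).mpr ?_⟩
  rw [show algebraMap 𝒪 T.Ring (MvPowerSeries.constantCoeff f) =
    Ideal.Quotient.mk T.rel (algebraMap 𝒪 (MvPowerSeries σ 𝒪) (MvPowerSeries.constantCoeff f))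
    from rfl, ← map_sub]
  have h : algebraMap 𝒪 (MvPowerSeries σ 𝒪) (MvPowerSeries.constantCoeff f) - f ∈
      maximalIdeal (MvPowerSeries σ 𝒪) ^ 1 := by
    rw [pow_one, mem_maximalIdeal_iff_constantCoeff, MvPowerSeries.algebraMap_apply, map_sub,
      MvPowerSeries.constantCoeff_C]
    simp
  simpa using mem_pow_of_algHom (Ideal.Quotient.mk T.rel)
    (isLocalHom_of_surjective' _ Ideal.Quotient.mk_surjective) h

theorem isLocalHom_algebraMap : IsLocalHom (algebraMap 𝒪 T.Ring) :=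
  ⟨fun o ho => (T.lev 0).test.isLocalHom.map_nonunit o (by simpa using ho.map (T.proj 0))⟩

variable [Finite (ResidueField 𝒪)] [IsNoetherianRing 𝒪] [IsAdicComplete (maximalIdeal 𝒪) 𝒪]
  [Finite σ]

theorem mem_pow_of_proj_eq_zero (h𝒟 : IsDeformationCondition 𝒪 𝒟) {n : ℕ} {r : T.Ring}
    (hr : T.proj n r = 0) : r ∈ maximalIdeal T.Ring ^ (n + 2) := by
  obtain ⟨f, rfl⟩ := Ideal.Quotient.mk_surjective r
  obtain ⟨y, hy, hyf⟩ :=
    T.exists_lift_from h𝒟 (fun _ => 0) (fun m => map_zero _) n f hr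
  have h1 := mem_pow_of_algHom (Ideal.Quotient.mk T.rel)
    (isLocalHom_of_surjective' _ Ideal.Quotient.mk_surjective) hyf
  rw [map_sub, (Ideal.Quotient.eq_zero_iff_mem (I := T.rel)).mpr
    (Ideal.mem_iInf.mpr fun m => hy m), zero_sub, neg_mem_iff] at h1
  exact h1

theorem exists_rep (h𝒟 : IsDeformationCondition 𝒪 𝒟) :
    ∃ N : MRep T.Ring, ∀ n,
      mapRep (T.proj n : T.Ring →+* (T.lev n).carrier) N = (T.lev n).rep := by
  have hlift : ∀ a : ∀ n, (T.lev n).carrier, (∀ n, T.trans n (a (n + 1)) = a n) →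
      ∃ r : T.Ring, ∀ n, T.proj n r = a n := by
    intro a ha
    obtain ⟨q, hq⟩ := T.ψ_surjective 0 (a 0)
    obtain ⟨y, hy, -⟩ := T.exists_lift_from h𝒟 a ha 0 q hq
    exact ⟨Ideal.Quotient.mk T.rel y, hy⟩
  choose lift hlift using hlift
  let M : GQ → Matrix (Fin 2) (Fin 2) T.Ring := fun g => Matrix.of fun i j =>
    lift (fun n => (T.lev n).rep g i j)
      (fun n => congrFun (congrFun (DFunLike.congr_fun (T.trans_rep n) g) i) j)
  have hM : ∀ g i j n, T.proj n (M g i j) = (T.lev n).rep g i j := fun g i j n => hlift _ _ n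
  refine ⟨{
    toFun := M
    map_one' := Matrix.ext fun i j => T.proj_ext fun n => ?_
    map_mul' := fun g h => Matrix.ext fun i j => T.proj_ext fun n => ?_ }, fun n => ?_⟩
  · rw [hM, map_one]
    by_cases hij : i = j
    · rw [hij, Matrix.one_apply_eq, Matrix.one_apply_eq, map_one]
    · rw [Matrix.one_apply_ne hij, Matrix.one_apply_ne hij, map_zero]
  · rw [hM, map_mul]
    simp only [Matrix.mul_apply, map_sum, map_mul, hM]
  · exact MonoidHom.ext fun g => Matrix.ext fun i j => hM g i j n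

/-- The universal deformation. -/
noncomputable def rep (h𝒟 : IsDeformationCondition 𝒪 𝒟) : MRep T.Ring :=
  (T.exists_rep h𝒟).choose

theorem proj_rep (h𝒟 : IsDeformationCondition 𝒪 𝒟) (n : ℕ) :
    mapRep (T.proj n : T.Ring →+* (T.lev n).carrier) (T.rep h𝒟) = (T.lev n).rep :=
  (T.exists_rep h𝒟).choose_spec n

theorem isCont_rep (h𝒟 : IsDeformationCondition 𝒪 𝒟) : IsCont (T.rep h𝒟) := by
  intro n
  have := (T.lev n).test.isArtinian
  obtain ⟨L, hL, h1⟩ := (T.lev n).isDef.cont.finite_level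
  refine ⟨L, hL, fun g hg i j => Ideal.pow_le_pow_right (show n ≤ n + 2 by omega)
    (T.mem_pow_of_proj_eq_zero h𝒟 ?_)⟩
  have e : T.proj n (T.rep h𝒟 g i j) = (1 : Matrix (Fin 2) (Fin 2) (T.lev n).carrier) i j :=
    (congrFun (congrFun (DFunLike.congr_fun (T.proj_rep h𝒟 n) g) i) j).trans
      (congrFun (congrFun (h1 g hg) i) j)
  rw [Matrix.sub_apply, map_sub, e, sub_eq_zero]
  by_cases hij : i = j
  · rw [hij, Matrix.one_apply_eq, Matrix.one_apply_eq, map_one]
  · rw [Matrix.one_apply_ne hij, Matrix.one_apply_ne hij, map_zero]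

theorem isNormal_rep (h𝒟 : IsDeformationCondition 𝒪 𝒟) : D.IsNormal (T.rep h𝒟) := by
  have h : ∀ (x : MonoidAlgebra 𝒪 GQ) i j n,
      T.proj n (evRep (T.rep h𝒟) x i j) = evRep (T.lev n).rep x i j := fun x i j n => by
    rw [← T.proj_rep h𝒟 n, ← map_evRep]; rfl
  refine ⟨T.proj_ext fun n => ?_, T.proj_ext fun n => ?_, T.proj_ext fun n => ?_⟩
  · rw [h, (T.lev n).isDef.normal.1, map_zero]
  · rw [h, (T.lev n).isDef.normal.2.1, map_zero]
  · rw [h, (T.lev n).isDef.normal.2.2, map_one]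

theorem reduces_rep (h𝒟 : IsDeformationCondition 𝒪 𝒟) :
    D.Reduces T.isLocalHom_algebraMap T.residue_surjective (T.rep h𝒟) := by
  rw [NormalData.Reduces, ← toResidue_comp T.isLocalHom_algebraMap T.residue_surjective
    (T.lev 0).test.isLocalHom (T.lev 0).test.residue_surjective (T.proj 0) (T.isLocalHom_proj 0),
    ← (T.lev 0).isDef.reduces, ← T.proj_rep h𝒟 0, mapRep_mapRep]
  rfl

theorem type_rep (h𝒟 : IsDeformationCondition 𝒪 𝒟) :
    𝒟 (toAdic (T.rep h𝒟) (T.isCont_rep h𝒟)) := by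
  have := T.isAdicComplete
  rw [h𝒟.iff_forall_surjective T.isLocalHom_algebraMap T.residue_surjective]
  intro B _ _ _ hB q hq hqs
  have := hB.isArtinian
  obtain ⟨N, hN⟩ := isNilpotent_maximalIdeal_of_isArtinianRing (A := B)
  have hker : ∀ r, T.proj N r = 0 → q r = 0 := by
    intro r hr
    have := mem_pow_of_algHom (q : T.Ring →+* B) hq
      (Ideal.pow_le_pow_right (show N ≤ N + 2 by omega) (T.mem_pow_of_proj_eq_zero h𝒟 hr))
    rw [hN, Ideal.zero_eq_bot, Ideal.mem_bot] at this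
    exact this
  obtain ⟨θ, hθ⟩ := exists_comp_eq (T.proj_surjective N) q hker
  have hdef : IsDef D 𝒟 hB.isLocalHom hB.residue_surjective
      (mapRep (θ : (T.lev N).carrier →+* B) (T.lev N).rep) :=
    (T.lev N).isDef.map h𝒟 (T.lev N).test hB θ
  have heq : mapRep (q : T.Ring →+* B) (T.rep h𝒟) =
      mapRep (θ : (T.lev N).carrier →+* B) (T.lev N).rep := by
    rw [← T.proj_rep h𝒟 N, mapRep_mapRep, ← hθ]; rfl
  have e := baseChangeAlong_toAdic_isEquiv (T.rep h𝒟) (T.isCont_rep h𝒟) (q : T.Ring →+* B) hq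
  simp only [heq] at e
  exact h𝒟.of_isEquiv hB (isEquiv_symm e) hdef.type

variable {A : Type} [CommRing A] [IsLocalRing A] [Algebra 𝒪 A]

/-- A map out of the universal ring is determined by the image of the universal deformation. -/
theorem algHom_ext_of_rep (h𝒟 : IsDeformationCondition 𝒪 𝒟) [IsNoetherianRing A]
    {φ φ' : T.Ring →ₐ[𝒪] A} (hφ : IsLocalHom (φ : T.Ring →+* A))
    (hφ' : IsLocalHom (φ' : T.Ring →+* A))
    (h : mapRep (φ : T.Ring →+* A) (T.rep h𝒟) = mapRep (φ' : T.Ring →+* A) (T.rep h𝒟)) :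
    φ = φ' := by
  have key : ∀ n r, φ r - φ' r ∈ maximalIdeal A ^ n := by
    intro n r
    let q := Ideal.Quotient.mkₐ 𝒪 (maximalIdeal A ^ n)
    have hk : ∀ (θ : T.Ring →ₐ[𝒪] A), IsLocalHom (θ : T.Ring →+* A) →
        ∀ x, T.proj n x = 0 → q.comp θ x = 0 := by
      intro θ hθ x hx
      refine Ideal.Quotient.eq_zero_iff_mem.mpr ?_
      exact mem_pow_of_algHom (θ : T.Ring →+* A) hθ
        (Ideal.pow_le_pow_right (show n ≤ n + 2 by omega) (T.mem_pow_of_proj_eq_zero h𝒟 hx))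
    obtain ⟨α, hα⟩ := exists_comp_eq (T.proj_surjective n) (q.comp φ) (hk φ hφ)
    obtain ⟨β, hβ⟩ := exists_comp_eq (T.proj_surjective n) (q.comp φ') (hk φ' hφ')
    have hrep : mapRep (α : (T.lev n).carrier →+* A ⧸ maximalIdeal A ^ n) (T.lev n).rep =
        mapRep (β : (T.lev n).carrier →+* A ⧸ maximalIdeal A ^ n) (T.lev n).rep := by
      rw [← T.proj_rep h𝒟 n, mapRep_mapRep, mapRep_mapRep]
      show mapRep ((α.comp (T.proj n) : T.Ring →ₐ[𝒪] A ⧸ maximalIdeal A ^ n) :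
          T.Ring →+* A ⧸ maximalIdeal A ^ n) _ =
        mapRep ((β.comp (T.proj n) : T.Ring →ₐ[𝒪] A ⧸ maximalIdeal A ^ n) :
          T.Ring →+* A ⧸ maximalIdeal A ^ n) _
      rw [hα, hβ]
      show mapRep ((q : A →+* A ⧸ maximalIdeal A ^ n).comp (φ : T.Ring →+* A)) _ =
        mapRep ((q : A →+* A ⧸ maximalIdeal A ^ n).comp (φ' : T.Ring →+* A)) _
      rw [← mapRep_mapRep, ← mapRep_mapRep, h]
    have heq : q.comp φ = q.comp φ' := by
      rw [← hα, ← hβ]
      refine AlgHom.ext fun x => ?_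
      obtain ⟨y, rfl⟩ : ∃ y, y = x := ⟨x, rfl⟩
      have hext : Set.EqOn α β (Algebra.adjoin 𝒪 (entries (T.lev n).rep)) := by
        refine AlgHom.eqOn_adjoin_iff.mpr ?_
        rintro _ ⟨⟨g, i, j⟩, rfl⟩
        exact congrFun (congrFun (DFunLike.congr_fun hrep g) i) j
      exact hext (by rw [(T.lev n).gen]; exact Algebra.mem_top)
    exact Ideal.Quotient.eq.mp (DFunLike.congr_fun heq r)
  refine AlgHom.ext fun r => sub_eq_zero.mp
    (IsHausdorff.haus (inferInstance : IsHausdorff (maximalIdeal A) A) _ fun n => ?_)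
  rw [SModEq.zero, smul_eq_mul, Ideal.mul_top]
  exact key n r

theorem exists_algHom_of_isDef (h𝒟 : IsDeformationCondition 𝒪 𝒟) [IsNoetherianRing A]
    [IsAdicComplete (maximalIdeal A) A] (hlA : IsLocalHom (algebraMap 𝒪 A))
    (hsA : Function.Surjective (residue A ∘ algebraMap 𝒪 A)) (N : MRep A)
    (hN : IsDef D 𝒟 hlA hsA N) :
    ∃ (φ : T.Ring →ₐ[𝒪] A), IsLocalHom (φ : T.Ring →+* A) ∧
      mapRep (φ : T.Ring →+* A) (T.rep h𝒟) = N := by
  have hfinres : Finite (A ⧸ maximalIdeal A) := by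
    have := hlA
    refine Finite.of_surjective
      (fun x : ResidueField 𝒪 => ResidueField.map (algebraMap 𝒪 A) x) fun y => ?_
    obtain ⟨x, rfl⟩ := hsA y
    exact ⟨residue 𝒪 x, ResidueField.map_residue _ x⟩
  have hI1 : ∀ n, maximalIdeal A ^ (n + 2) ≤ maximalIdeal A := fun n =>
    Ideal.pow_le_self (by omega)
  have hnt : ∀ n, Nontrivial (A ⧸ maximalIdeal A ^ (n + 2)) := fun n =>
    Ideal.Quotient.nontrivial_iff.mpr fun h =>
      (maximalIdeal.isMaximal A).ne_top (top_le_iff.mp (h ▸ hI1 n))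
  have hlr : ∀ n, IsLocalRing (A ⧸ maximalIdeal A ^ (n + 2)) := fun n =>
    IsLocalRing.of_surjective' (Ideal.Quotient.mk _) Ideal.Quotient.mk_surjective
  have hmk : ∀ n, IsLocalHom (Ideal.Quotient.mk (maximalIdeal A ^ (n + 2))) := fun n =>
    isLocalHom_of_surjective' _ Ideal.Quotient.mk_surjective
  have hB : ∀ n, IsArtinianTestAlgebra 𝒪 (A ⧸ maximalIdeal A ^ (n + 2)) := by
    intro n
    have := Ideal.finite_quotient_pow (IsNoetherian.noetherian (maximalIdeal A)) (n + 2)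
    let π : A ⧸ maximalIdeal A ^ (n + 2) →ₐ[𝒪] ResidueField 𝒪 :=
      Ideal.Quotient.liftₐ _ (toResidue hlA hsA)
        fun x hx => (toResidue_eq_zero_iff hlA hsA).mpr (hI1 n hx)
    refine isArtinianTestAlgebra_of_toField π fun c hc => ⟨n + 2, ?_⟩
    obtain ⟨x, rfl⟩ := Ideal.Quotient.mk_surjective c
    rw [← map_pow, Ideal.Quotient.eq_zero_iff_mem]
    exact Ideal.pow_mem_pow ((toResidue_eq_zero_iff hlA hsA).mp hc) _
  have htype := (h𝒟.iff_forall_surjective hlA hsA _).mp hN.type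
  have hdef : ∀ n, IsDef D 𝒟 (hB n).isLocalHom (hB n).residue_surjective
      (mapRep (Ideal.Quotient.mkₐ 𝒪 (maximalIdeal A ^ (n + 2)) :
        A →+* A ⧸ maximalIdeal A ^ (n + 2)) N) := fun n =>
    ⟨hN.normal.map _, hN.reduces.map _ (hmk n), hN.cont.map _ (hmk n),
      h𝒟.of_isEquiv (hB n) (baseChangeAlong_toAdic_isEquiv N hN.cont _ (hmk n))
        (htype (hB n) (Ideal.Quotient.mkₐ 𝒪 _) (hmk n) Ideal.Quotient.mk_surjective)⟩
  have hpow : ∀ n, maximalIdeal (A ⧸ maximalIdeal A ^ (n + 2)) ^ (n + 2) = ⊥ := fun n => by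
    rw [← map_maximalIdeal_of_surjective (Ideal.Quotient.mk (maximalIdeal A ^ (n + 2)))
      Ideal.Quotient.mk_surjective]
    exact Ideal.map_quotient_self _
  choose g hg using fun n =>
    DefAlg.exists_algHom_of_max h𝒟 (T.lev n) (T.max n) (hB n) (hdef n) (hpow n)
  have hcompat : ∀ n, (Ideal.Quotient.factorₐ 𝒪
      (Ideal.pow_le_pow_right (I := maximalIdeal A) (show n + 2 ≤ n + 3 by omega))).comp
        (g (n + 1)) = (g n).comp (T.trans n) := by
    intro n
    refine algHom_eq_of_mapRep_eq (T.lev (n + 1)).gen ?_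
    refine MonoidHom.ext fun s => Matrix.ext fun i j => ?_
    have e1 := congrFun (congrFun (DFunLike.congr_fun (hg (n + 1)) s) i) j
    have e2 := congrFun (congrFun (DFunLike.congr_fun (hg n) s) i) j
    have e3 := congrFun (congrFun (DFunLike.congr_fun (T.trans_rep n) s) i) j
    simp only [mapRep_apply, Matrix.map_apply, RingHom.coe_coe] at e1 e2 e3
    show Ideal.Quotient.factor (Ideal.pow_le_pow_right (I := maximalIdeal A)
      (show n + 2 ≤ n + 3 by omega)) (g (n + 1) _) = g n (T.trans n _)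
    rw [e1, e3, e2]
    rfl
  let f : ∀ n, T.Ring →ₐ[𝒪] A ⧸ maximalIdeal A ^ (n + 2) := fun n => (g n).comp (T.proj n)
  have ha : StrictMono fun n : ℕ => n + 2 := fun a b hab => by show a + 2 < b + 2; omega
  have hf : ∀ {m : ℕ}, (Ideal.Quotient.factorPow (maximalIdeal A)
      (ha.monotone m.le_succ)).comp (f (m + 1) : T.Ring →+* A ⧸ maximalIdeal A ^ (m + 1 + 2)) =
        (f m : T.Ring →+* A ⧸ maximalIdeal A ^ (m + 2)) := by
    intro m
    refine RingHom.ext fun r => ?_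
    show Ideal.Quotient.factor (Ideal.pow_le_pow_right (I := maximalIdeal A)
      (show m + 2 ≤ m + 3 by omega)) (g (m + 1) (T.proj (m + 1) r)) = g m (T.proj m r)
    rw [← DFunLike.congr_fun (T.trans_proj m) r]
    exact DFunLike.congr_fun (hcompat m) _
  let φ₀ := IsAdicComplete.StrictMono.liftRingHom (maximalIdeal A) ha
    (fun n => (f n : T.Ring →+* A ⧸ maximalIdeal A ^ (n + 2))) hf
  have hφ₀ : ∀ n r, Ideal.Quotient.mk (maximalIdeal A ^ (n + 2)) (φ₀ r) = f n r :=
    fun n r => IsAdicComplete.StrictMono.mk_liftRingHom (maximalIdeal A) ha _ hf r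
  have hzero : ∀ {z : A}, (∀ n, Ideal.Quotient.mk (maximalIdeal A ^ (n + 2)) z = 0) → z = 0 := by
    intro z hz
    refine IsHausdorff.haus (inferInstance : IsHausdorff (maximalIdeal A) A) _ fun n => ?_
    rw [SModEq.zero, smul_eq_mul, Ideal.mul_top]
    exact Ideal.pow_le_pow_right (show n ≤ n + 2 by omega) (Ideal.Quotient.eq_zero_iff_mem.mp (hz n))
  let φ : T.Ring →ₐ[𝒪] A :=
    { φ₀ with
      commutes' := fun o => sub_eq_zero.mp (hzero fun n => by
        show Ideal.Quotient.mk _ (φ₀ (algebraMap 𝒪 T.Ring o) - algebraMap 𝒪 A o) = 0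
        rw [map_sub, hφ₀, AlgHom.commutes, sub_eq_zero]
        rfl) }
  refine ⟨φ, ⟨fun r hr => ?_⟩, MonoidHom.ext fun s => Matrix.ext fun i j =>
    sub_eq_zero.mp (hzero fun n => ?_)⟩
  · have : IsUnit (f 0 r) := by
      rw [← hφ₀]
      exact hr.map _
    have := (T.lev 0).test.isArtinian
    have hl := isLocalHom_of_isArtinianRing (g 0 : (T.lev 0).carrier →+* A ⧸ maximalIdeal A ^ (0 + 2))
    exact (T.isLocalHom_proj 0).map_nonunit r (hl.map_nonunit _ ‹IsUnit (f 0 r)›)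
  · show Ideal.Quotient.mk _ (φ₀ (T.rep h𝒟 s i j) - N s i j) = 0
    rw [map_sub, hφ₀, sub_eq_zero]
    have e1 := congrFun (congrFun (DFunLike.congr_fun (T.proj_rep h𝒟 n) s) i) j
    have e2 := congrFun (congrFun (DFunLike.congr_fun (hg n) s) i) j
    simp only [mapRep_apply, Matrix.map_apply, RingHom.coe_coe] at e1 e2
    show g n (T.proj n _) = _
    rw [e1, e2]
    rfl

end Tower

end Fermat.Agent.DefRing
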